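/-
EC / FrobFixed, layer 0: valuation lemmas.
* roots of polynomials with integral coefficients and unit leading coefficient are integral;
* over an algebraically closed field such a polynomial has a root near every integral point where
  its value is in the maximal ideal;
* elements of the decomposition group of a valuation subring preserve `v ≤ 1` and `v < 1`.
-/
import Mathlib

set_option autoImplicit false

namespace Fermat.Agent.EC.FrobFixed

open Polynomial

section Val

variable {K : Type*} [Field K] {Γ₀ : Type*} [LinearOrderedCommGroupWithZero Γ₀]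
  (v : Valuation K Γ₀)

/-- A root of a polynomial with integral coefficients and unit leading coefficient is integral. -/
theorem val_root_le_one {f : K[X]} (hf : ∀ i, v (f.coeff i) ≤ 1) (hlead : v f.leadingCoeff = 1)
    {x : K} (hx : f.eval x = 0) : v x ≤ 1 := by
  by_contra hcon
  rw [not_le] at hcon
  have hsum := Polynomial.eval_eq_sum_range (p := f) x
  rw [Finset.sum_range_succ, hx] at hsum
  have hx0 : v x ^ f.natDegree ≠ 0 := pow_ne_zero _ (ne_of_gt (lt_trans zero_lt_one hcon))
  have hlow : v (∑ i ∈ Finset.range f.natDegree, f.coeff i * x ^ i) < v x ^ f.natDegree := by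
    apply Valuation.map_sum_lt v hx0
    intro i hi
    rw [Finset.mem_range] at hi
    rw [map_mul, map_pow]
    calc v (f.coeff i) * v x ^ i ≤ 1 * v x ^ i := mul_le_mul_left (hf i) _
      _ = v x ^ i := one_mul _
      _ < v x ^ f.natDegree := pow_lt_pow_right₀ hcon hi
  have hlead' : v (f.coeff f.natDegree * x ^ f.natDegree) = v x ^ f.natDegree := by
    rw [map_mul, map_pow]
    change v f.leadingCoeff * _ = _
    rw [hlead, one_mul]
  have e : f.coeff f.natDegree * x ^ f.natDegree =
      -(∑ i ∈ Finset.range f.natDegree, f.coeff i * x ^ i) := by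
    linear_combination -hsum
  rw [e, Valuation.map_neg] at hlead'
  exact absurd hlead' (ne_of_lt hlow)

/-- Over an algebraically closed field: a polynomial with integral coefficients and unit leading
coefficient whose value at an integral `a` lies in the maximal ideal has a root `x ≡ a`. -/
theorem exists_root_close [IsAlgClosed K] {f : K[X]} (hf : ∀ i, v (f.coeff i) ≤ 1)
    (hlead : v f.leadingCoeff = 1) {a : K} (ha : v a ≤ 1) (hfa : v (f.eval a) < 1) :
    ∃ x : K, f.eval x = 0 ∧ v (x - a) < 1 := by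
  by_contra hcon
  have hall : ∀ x ∈ f.roots, v (a - x) = 1 := by
    intro x hx
    have hx0 : f.eval x = 0 := (Polynomial.mem_roots'.mp hx).2
    have hxi : v x ≤ 1 := val_root_le_one v hf hlead hx0
    have h1 : v (a - x) ≤ 1 := Valuation.map_sub_le v ha hxi
    have h2 : ¬ v (x - a) < 1 := fun h => hcon ⟨x, hx0, h⟩
    rw [Valuation.map_sub_swap] at h2
    exact le_antisymm h1 (not_lt.mp h2)
  have hev := (IsAlgClosed.splits f).eval_eq_prod_roots a
  rw [hev, map_mul, hlead, one_mul, map_multiset_prod, Multiset.map_map] at hfa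
  have hprod : (Multiset.map (v ∘ fun x => a - x) f.roots).prod = 1 := by
    apply Multiset.prod_eq_one
    intro g hg
    obtain ⟨x, hx, rfl⟩ := Multiset.mem_map.mp hg
    exact hall x hx
  rw [hprod] at hfa
  exact lt_irrefl _ hfa

end Val

section IntCast

variable {K : Type*} [Field K] {Γ₀ : Type*} [LinearOrderedCommGroupWithZero Γ₀]
  (v : Valuation K Γ₀)

/-- Integers are integral. -/
theorem val_intCast_le_one (z : ℤ) : v (z : K) ≤ 1 := by
  have hnat : ∀ n : ℕ, v (n : K) ≤ 1 := by
    intro n
    induction n with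
    | zero => simp
    | succ n ih =>
      rw [Nat.cast_succ]
      exact (v.map_add _ _).trans (max_le ih (by rw [map_one]))
  rcases Int.natAbs_eq z with h | h
  · rw [h, Int.cast_natCast]
    exact hnat _
  · rw [h, Int.cast_neg, Int.cast_natCast, Valuation.map_neg]
    exact hnat _

/-- Multiples of `ℓ` lie in the maximal ideal. -/
theorem val_intCast_lt_one {ℓ : ℕ} (hℓ : v (ℓ : K) < 1) {z : ℤ} (hz : (ℓ : ℤ) ∣ z) :
    v (z : K) < 1 := by
  obtain ⟨w, rfl⟩ := hz
  rw [Int.cast_mul, Int.cast_natCast, map_mul]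
  calc v (ℓ : K) * v (w : K) ≤ v (ℓ : K) * 1 := mul_le_mul' le_rfl (val_intCast_le_one v w)
    _ = v (ℓ : K) := mul_one _
    _ < 1 := hℓ

/-- Integers prime to `ℓ` are units. -/
theorem val_intCast_eq_one {ℓ : ℕ} (hℓp : ℓ.Prime) (hℓ : v (ℓ : K) < 1) {z : ℤ}
    (hz : ¬ (ℓ : ℤ) ∣ z) : v (z : K) = 1 := by
  by_contra hne
  have hlt := lt_of_le_of_ne (val_intCast_le_one v z) hne
  have hcop : IsCoprime (ℓ : ℤ) z := (Nat.prime_iff_prime_int.mp hℓp).coprime_iff_not_dvd.mpr hz
  obtain ⟨a, b, hab⟩ := hcop
  have h1 : v ((a : K) * (ℓ : K) + (b : K) * (z : K)) < 1 := by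
    refine lt_of_le_of_lt (v.map_add _ _) (max_lt ?_ ?_)
    · rw [map_mul]
      calc v (a : K) * v (ℓ : K) ≤ 1 * v (ℓ : K) := mul_le_mul' (val_intCast_le_one v a) le_rfl
        _ = v (ℓ : K) := one_mul _
        _ < 1 := hℓ
    · rw [map_mul]
      calc v (b : K) * v (z : K) ≤ 1 * v (z : K) := mul_le_mul' (val_intCast_le_one v b) le_rfl
        _ = v (z : K) := one_mul _
        _ < 1 := hlt
  have h2 : ((a : K) * (ℓ : K) + (b : K) * (z : K)) = 1 := by
    have := congrArg (Int.cast : ℤ → K) hab
    push_cast at this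
    exact this
  rw [h2, map_one] at h1
  exact lt_irrefl _ h1

/-- A root of a monic quadratic with integral coefficients is integral. -/
theorem val_quadratic_root_le_one {c d y : K} (hc : v c ≤ 1) (hd : v d ≤ 1)
    (hy : y ^ 2 + c * y + d = 0) : v y ≤ 1 := by
  by_contra hcon
  rw [not_le] at hcon
  have e2 : v (y ^ 2) = v y ^ 2 := map_pow _ _ _
  have l1 : v (c * y) < v y ^ 2 := by
    rw [map_mul]
    calc v c * v y ≤ 1 * v y := mul_le_mul' hc le_rfl
      _ = v y ^ 1 := by rw [one_mul, pow_one]
      _ < v y ^ 2 := pow_lt_pow_right₀ hcon (by norm_num)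
  have l2 : v d < v y ^ 2 := lt_of_le_of_lt hd (one_lt_pow₀ hcon (by norm_num))
  have e' : y ^ 2 = -(c * y + d) := by linear_combination hy
  rw [e', Valuation.map_neg] at e2
  have h := v.map_add_lt l1 l2
  rw [e2] at h
  exact lt_irrefl _ h

/-- Over an algebraically closed field, a monic quadratic with integral coefficients whose value
at an integral `b` lies in the maximal ideal has a root `y ≡ b`. -/
theorem exists_quadratic_root_close [IsAlgClosed K] {c d b : K} (hc : v c ≤ 1) (hd : v d ≤ 1)
    (hb : v b ≤ 1) (h : v (b ^ 2 + c * b + d) < 1) :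
    ∃ y : K, y ^ 2 + c * y + d = 0 ∧ v (y - b) < 1 := by
  obtain ⟨y₁, hy₁⟩ : ∃ y : K, y ^ 2 + c * y + d = 0 := by
    have hdeg : (C (1 : K) * X ^ 2 + C c * X + C d).degree ≠ 0 := by
      rw [Polynomial.degree_quadratic one_ne_zero]
      norm_num
    obtain ⟨y, hy⟩ := IsAlgClosed.exists_root _ hdeg
    refine ⟨y, ?_⟩
    rw [Polynomial.IsRoot.def] at hy
    simpa using hy
  have hy₂ : (-c - y₁) ^ 2 + c * (-c - y₁) + d = 0 := by linear_combination hy₁
  have i₁ : v y₁ ≤ 1 := val_quadratic_root_le_one v hc hd hy₁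
  have i₂ : v (-c - y₁) ≤ 1 := val_quadratic_root_le_one v hc hd hy₂
  by_cases h1 : v (y₁ - b) < 1
  · exact ⟨y₁, hy₁, h1⟩
  · refine ⟨-c - y₁, hy₂, ?_⟩
    have e1 : v (y₁ - b) = 1 := le_antisymm (Valuation.map_sub_le v i₁ hb) (not_lt.mp h1)
    have hprod : (y₁ - b) * (-c - y₁ - b) = b ^ 2 + c * b + d := by linear_combination -hy₁
    have := congrArg v hprod
    rw [map_mul, e1, one_mul] at this
    rw [this]
    exact h

end IntCast

section Decomp

variable {F K : Type*} [Field F] [Field K] [Algebra F K]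

/-- Elements of the decomposition group preserve the valuation subring. -/
theorem decomp_mem (A : ValuationSubring K) (σ : K ≃ₐ[F] K)
    (hσ : σ ∈ A.decompositionSubgroup F) {x : K} (hx : x ∈ A) : σ x ∈ A :=
  (((⟨σ, hσ⟩ : A.decompositionSubgroup F) • (⟨x, hx⟩ : A) : A)).2

/-- Elements of the decomposition group preserve integrality. -/
theorem decomp_val_le_one (A : ValuationSubring K) (σ : K ≃ₐ[F] K)
    (hσ : σ ∈ A.decompositionSubgroup F) {x : K} (hx : A.valuation x ≤ 1) :
    A.valuation (σ x) ≤ 1 := by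
  rw [ValuationSubring.valuation_le_one_iff] at hx ⊢
  exact decomp_mem A σ hσ hx

/-- Elements of the decomposition group preserve the maximal ideal. -/
theorem decomp_val_lt_one (A : ValuationSubring K) (σ : K ≃ₐ[F] K)
    (hσ : σ ∈ A.decompositionSubgroup F) {x : K} (hx : A.valuation x < 1) :
    A.valuation (σ x) < 1 := by
  by_contra hcon
  have h1 : A.valuation (σ x) = 1 := le_antisymm (decomp_val_le_one A σ hσ hx.le) (not_lt.mp hcon)
  have hx0 : σ x ≠ 0 := by
    intro h0
    rw [h0, map_zero] at h1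
    exact zero_ne_one h1
  have h2 : A.valuation (σ x)⁻¹ ≤ 1 := by rw [map_inv₀, h1, inv_one]
  have hinv : σ⁻¹ ∈ A.decompositionSubgroup F := (A.decompositionSubgroup F).inv_mem hσ
  have h3 := decomp_val_le_one A σ⁻¹ hinv h2
  have e : σ⁻¹ ((σ x)⁻¹) = x⁻¹ := by
    rw [map_inv₀]
    congr 1
    exact σ.symm_apply_apply x
  rw [e, map_inv₀] at h3
  have hx1 : x ≠ 0 := fun h => hx0 (by rw [h, map_zero])
  have hvx : A.valuation x ≠ 0 := (Valuation.ne_zero_iff _).mpr hx1
  have h4 : 1 ≤ A.valuation x := by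
    rwa [inv_le_one₀ (zero_lt_iff.mpr hvx)] at h3
  exact absurd hx (not_lt.mpr h4)

end Decomp

end Fermat.Agent.EC.FrobFixed
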