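/-
EC / FrobFixed, layer 2: lifting a torsion point of the reduction mod `ℓ` of an integral Weierstrass
model to a torsion point over an algebraically closed valued field of characteristic zero,
using the division-polynomial criterion for torsion (EC-TORS (C)) as an explicit hypothesis.
-/
import Mathlib
import Fermat.Agent.EC.FrobFixed.Val

set_option autoImplicit false

namespace Fermat.Agent.EC.FrobFixed

open WeierstrassCurve WeierstrassCurve.Affine Polynomial

/-- The division-polynomial criterion for torsion over the field `F` (EC-TORS (C) interface):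
`n • P = 0 ↔ ΨSqₙ(x(P)) = 0` for every nonsingular affine point `P` of every Weierstrass curve. -/
def TorsionCriterion (F : Type*) [Field F] [DecidableEq F] : Prop :=
  ∀ (W : Affine F) (x y : F) (h : W.Nonsingular x y) (n : ℤ),
    n • Point.some x y h = 0 ↔ (W.ΨSq n).eval x = 0

section Lift

variable {K : Type*} [Field K] [DecidableEq K] [IsAlgClosed K] [CharZero K] {Γ₀ : Type*}
  [LinearOrderedCommGroupWithZero Γ₀] (v : Valuation K Γ₀)

/-- Evaluation of the base change of an integer polynomial at an integer. -/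
theorem eval_map_intCast {R : Type*} [CommRing R] (f : ℤ[X]) (a : ℤ) :
    (f.map (Int.castRingHom R)).eval (a : R) = ((f.eval a : ℤ) : R) := by
  rw [Polynomial.eval_map]
  exact Polynomial.eval₂_at_apply (Int.castRingHom R) a

/-- **Lifting torsion points.**  `W` an integral Weierstrass model, `ℓ` a prime of good reduction,
`n` prime to `ℓ`.  A point `(a, b) mod ℓ` of the reduction killed by `n` lifts to a point `(x, y)`
of `W` over `K` killed by `n`, with `x ≡ a`, `y ≡ b` modulo the maximal ideal. -/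
theorem exists_lift (hK : TorsionCriterion K) (W : WeierstrassCurve ℤ) {ℓ : ℕ} [Fact ℓ.Prime]
    (hℓ : v (ℓ : K) < 1) (hF : TorsionCriterion (ZMod ℓ)) (hΔ : ¬ (ℓ : ℤ) ∣ W.Δ)
    {n : ℕ} (hn : ¬ ℓ ∣ n) {a b : ℤ}
    (hab : (W.map (Int.castRingHom (ZMod ℓ))).toAffine.Nonsingular (a : ZMod ℓ) (b : ZMod ℓ))
    (htors : (n : ℤ) • Point.some _ _ hab = 0)
    (W' : Affine K) (hW' : W' = W.map (Int.castRingHom K)) :
    ∃ (x y : K) (h : W'.Nonsingular x y),
      (n : ℤ) • Point.some x y h = 0 ∧ v (x - a) < 1 ∧ v (y - b) < 1 := by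
  subst hW'
  have hℓp : ℓ.Prime := Fact.out
  have hn0 : n ≠ 0 := by
    rintro rfl
    exact hn (dvd_zero ℓ)
  have hnK : ((n : ℤ) : K) ≠ 0 := by
    rw [Int.cast_natCast]
    exact Nat.cast_ne_zero.mpr hn0
  have hvn : v ((n : ℤ) : K) = 1 := by
    apply val_intCast_eq_one v hℓp hℓ
    intro h
    exact hn (Int.natCast_dvd_natCast.mp h)
  -- Step 1: `ΨSq_n(a) ≡ 0 mod ℓ`
  have h1 : (ℓ : ℤ) ∣ (W.ΨSq n).eval a := by
    have h := (hF _ _ _ hab n).mp htors
    rw [map_ΨSq, eval_map_intCast] at h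
    exact (ZMod.intCast_zmod_eq_zero_iff_dvd _ ℓ).mp h
  -- Step 2: a root `x` of `ΨSq_n` over `K` with `x ≡ a`
  obtain ⟨x, hx0, hxa⟩ : ∃ x : K, ((W.map (Int.castRingHom K)).ΨSq n).eval x = 0 ∧
      v (x - a) < 1 := by
    apply exists_root_close v
    · intro i
      rw [map_ΨSq, Polynomial.coeff_map]
      exact val_intCast_le_one v _
    · rw [leadingCoeff_ΨSq _ hnK, map_pow, hvn, one_pow]
    · exact val_intCast_le_one v a
    · rw [map_ΨSq, eval_map_intCast]
      exact val_intCast_lt_one v hℓ h1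
  have ia : v (a : K) ≤ 1 := val_intCast_le_one v a
  have ib : v (b : K) ≤ 1 := val_intCast_le_one v b
  have ix : v x ≤ 1 := by
    have : x = (x - a) + a := by ring
    rw [this]
    exact (v.map_add _ _).trans (max_le hxa.le ia)
  -- Step 3: the equation mod `ℓ`
  have h3 : (ℓ : ℤ) ∣ b ^ 2 + (W.a₁ * a + W.a₃) * b - (a ^ 3 + W.a₂ * a ^ 2 + W.a₄ * a + W.a₆) := by
    have h := hab.1
    rw [Affine.equation_iff] at h
    simp only [map_a₁, map_a₂, map_a₃, map_a₄, map_a₆] at h
    rw [← ZMod.intCast_zmod_eq_zero_iff_dvd _ ℓ]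
    push_cast
    simp only [eq_intCast] at h
    linear_combination h
  -- Step 4: a root `y` of the Weierstrass quadratic with `y ≡ b`
  have i₁ : v (W.a₁ : K) ≤ 1 := val_intCast_le_one v _
  have i₂ : v (W.a₂ : K) ≤ 1 := val_intCast_le_one v _
  have i₃ : v (W.a₃ : K) ≤ 1 := val_intCast_le_one v _
  have i₄ : v (W.a₄ : K) ≤ 1 := val_intCast_le_one v _
  have i₆ : v (W.a₆ : K) ≤ 1 := val_intCast_le_one v _
  have m₁ : (W.a₁ : K) ∈ v.integer := i₁
  have m₂ : (W.a₂ : K) ∈ v.integer := i₂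
  have m₃ : (W.a₃ : K) ∈ v.integer := i₃
  have m₄ : (W.a₄ : K) ∈ v.integer := i₄
  have m₆ : (W.a₆ : K) ∈ v.integer := i₆
  have mx : x ∈ v.integer := ix
  have ma : (a : K) ∈ v.integer := ia
  have mb : (b : K) ∈ v.integer := ib
  obtain ⟨y, hy0, hyb⟩ : ∃ y : K, y ^ 2 + ((W.a₁ : K) * x + W.a₃) * y +
      -(x ^ 3 + (W.a₂ : K) * x ^ 2 + W.a₄ * x + W.a₆) = 0 ∧ v (y - b) < 1 := by
    apply exists_quadratic_root_close v
    · change _ ∈ v.integer
      exact Subring.add_mem _ (Subring.mul_mem _ m₁ mx) m₃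
    · change _ ∈ v.integer
      refine Subring.neg_mem _ (Subring.add_mem _ (Subring.add_mem _ (Subring.add_mem _
        (Subring.pow_mem _ mx 3) (Subring.mul_mem _ m₂ (Subring.pow_mem _ mx 2)))
        (Subring.mul_mem _ m₄ mx)) m₆)
    · exact ib
    · -- the value at `b` is `N + (x - a) * (integral)`
      have hN : v (((b ^ 2 + (W.a₁ * a + W.a₃) * b -
          (a ^ 3 + W.a₂ * a ^ 2 + W.a₄ * a + W.a₆) : ℤ)) : K) < 1 :=
        val_intCast_lt_one v hℓ h3
      have hdiff : v ((x - a) * ((W.a₁ : K) * b - (x ^ 2 + x * a + a ^ 2) - W.a₂ * (x + a) -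
          W.a₄)) < 1 := by
        rw [map_mul]
        have hint : v ((W.a₁ : K) * b - (x ^ 2 + x * a + a ^ 2) - W.a₂ * (x + a) - W.a₄) ≤ 1 := by
          change _ ∈ v.integer
          refine Subring.sub_mem _ (Subring.sub_mem _ (Subring.sub_mem _ (Subring.mul_mem _ m₁ mb)
            (Subring.add_mem _ (Subring.add_mem _ (Subring.pow_mem _ mx 2)
              (Subring.mul_mem _ mx ma)) (Subring.pow_mem _ ma 2)))
            (Subring.mul_mem _ m₂ (Subring.add_mem _ mx ma))) m₄
        calc v (x - a) * v ((W.a₁ : K) * b - (x ^ 2 + x * a + a ^ 2) - W.a₂ * (x + a) - W.a₄)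
            ≤ v (x - a) * 1 := mul_le_mul' le_rfl hint
          _ = v (x - a) := mul_one _
          _ < 1 := hxa
      have e : (b : K) ^ 2 + ((W.a₁ : K) * x + W.a₃) * b +
          -(x ^ 3 + (W.a₂ : K) * x ^ 2 + W.a₄ * x + W.a₆) =
          (((b ^ 2 + (W.a₁ * a + W.a₃) * b -
            (a ^ 3 + W.a₂ * a ^ 2 + W.a₄ * a + W.a₆) : ℤ)) : K) +
          (x - a) * ((W.a₁ : K) * b - (x ^ 2 + x * a + a ^ 2) - W.a₂ * (x + a) - W.a₄) := by
        push_cast
        ring
      rw [e]
      exact v.map_add_lt hN hdiff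
  -- Step 5: the point
  have hΔK : (W.map (Int.castRingHom K)).Δ ≠ 0 := by
    rw [map_Δ]
    simp only [eq_intCast]
    rw [Int.cast_ne_zero]
    rintro h0
    exact hΔ (h0 ▸ dvd_zero _)
  have hEq : (W.map (Int.castRingHom K)).toAffine.Equation x y := by
    rw [Affine.equation_iff]
    simp only [map_a₁, map_a₂, map_a₃, map_a₄, map_a₆, eq_intCast]
    linear_combination hy0
  have hNs : (W.map (Int.castRingHom K)).toAffine.Nonsingular x y :=
    (equation_iff_nonsingular_of_Δ_ne_zero hΔK).mp hEq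
  exact ⟨x, y, hNs, (hK _ _ _ hNs n).mpr hx0, hxa, hyb⟩

end Lift

end Fermat.Agent.EC.FrobFixed
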