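/-
EC / FrobFixed, layer 1: injectivity of reduction on torsion for an ARBITRARY integral Weierstrass
model with unit discriminant over an algebraically closed valued field in which `2` is a unit.

The curve is moved to Legendre form `Y² = X³ + a X² + b X` over `K` by the change of variables
`(1, e, -a₁/2, -(a₃ + e a₁)/2)`, `e` a root of the 2-division cubic, and then the S05 library
(`sub_inE1_of_same_red`, `E1_torsion_free`) applies.
-/
import Mathlib
import Fermat.Agent.S05.Leg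
import Fermat.Agent.S05.E1
import Fermat.Agent.S05.SameRed
import Fermat.Agent.S05.LocalGood
import Fermat.Agent.S05.Transfer

set_option autoImplicit false

namespace Fermat.Agent.EC.FrobFixed

open WeierstrassCurve WeierstrassCurve.Affine
open Fermat.Agent.S05

section

variable {K : Type*} [Field K] {Γ₀ : Type*} [LinearOrderedCommGroupWithZero Γ₀]
  (v : Valuation K Γ₀)

/-- A root of a cubic `4 X³ + b₂ X² + 2 b₄ X + b₆` with integral coefficients is integral when `2`
is a unit. -/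
theorem val_cubic_root_le_one {b₂ b₄ b₆ e : K} (h2 : v (2 : K) = 1) (hb₂ : v b₂ ≤ 1)
    (hb₄ : v b₄ ≤ 1) (hb₆ : v b₆ ≤ 1) (he : 4 * e ^ 3 + b₂ * e ^ 2 + 2 * b₄ * e + b₆ = 0) :
    v e ≤ 1 := by
  by_contra hcon
  rw [not_le] at hcon
  have h4 : v (4 : K) = 1 := by
    have : (4 : K) = 2 * 2 := by norm_num
    rw [this, map_mul, h2, one_mul]
  have e3 : v (4 * e ^ 3) = v e ^ 3 := by rw [map_mul, h4, one_mul, map_pow]
  have l1 : v (b₂ * e ^ 2) < v e ^ 3 := by
    rw [map_mul, map_pow]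
    calc v b₂ * v e ^ 2 ≤ 1 * v e ^ 2 := mul_le_mul_left hb₂ _
      _ = v e ^ 2 := one_mul _
      _ < v e ^ 3 := pow_lt_pow_right₀ hcon (by norm_num)
  have l2 : v (2 * b₄ * e) < v e ^ 3 := by
    rw [map_mul, map_mul, h2, one_mul]
    calc v b₄ * v e ≤ 1 * v e := mul_le_mul_left hb₄ _
      _ = v e ^ 1 := by rw [one_mul, pow_one]
      _ < v e ^ 3 := pow_lt_pow_right₀ hcon (by norm_num)
  have l3 : v b₆ < v e ^ 3 := lt_of_le_of_lt hb₆ (one_lt_pow₀ hcon (by norm_num))
  have e' : 4 * e ^ 3 = -(b₂ * e ^ 2 + 2 * b₄ * e + b₆) := by linear_combination he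
  rw [e', Valuation.map_neg] at e3
  have h := v.map_add_lt (v.map_add_lt l1 l2) l3
  rw [e3] at h
  exact lt_irrefl _ h

/-- Unit discriminant of a Legendre-type curve. -/
theorem val_leg_disc {a b : K} (h2 : v (2 : K) = 1) (ha : v a ≤ 1) (hb : v b ≤ 1)
    (hΔ : v (16 * b ^ 2 * (a ^ 2 - 4 * b)) = 1) : v (b * (a ^ 2 - 4 * b)) = 1 := by
  have h4 : v (4 : K) = 1 := by
    have : (4 : K) = 2 * 2 := by norm_num
    rw [this, map_mul, h2, one_mul]
  have h16 : v (16 : K) = 1 := by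
    have : (16 : K) = 4 * 4 := by norm_num
    rw [this, map_mul, h4, one_mul]
  have hD : v (a ^ 2 - 4 * b) ≤ 1 := by
    apply Valuation.map_sub_le v
    · rw [map_pow]; exact pow_le_one' ha 2
    · rw [map_mul, h4, one_mul]; exact hb
  rw [map_mul, map_mul, h16, one_mul, map_pow] at hΔ
  have hb1 : v b = 1 := by
    by_contra hne
    have hlt : v b < 1 := lt_of_le_of_ne hb hne
    have : v b ^ 2 * v (a ^ 2 - 4 * b) < 1 := by
      calc v b ^ 2 * v (a ^ 2 - 4 * b) ≤ v b ^ 2 * 1 := mul_le_mul' le_rfl hD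
        _ = v b ^ 2 := mul_one _
        _ = v b * v b := sq _
        _ ≤ v b * 1 := mul_le_mul' le_rfl hb
        _ = v b := mul_one _
        _ < 1 := hlt
    rw [hΔ] at this
    exact lt_irrefl _ this
  rw [hb1, one_pow, one_mul] at hΔ
  rw [map_mul, hb1, one_mul, hΔ]

end

section Main

variable {K : Type*} [Field K] [DecidableEq K] [IsAlgClosed K] {Γ₀ : Type*}
  [LinearOrderedCommGroupWithZero Γ₀] (v : Valuation K Γ₀)

/-- **Injectivity of reduction on torsion**, arbitrary Weierstrass form.  `W` has integral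
coefficients and unit discriminant, `2` and `m` are units.  Two integral affine points killed by
`m` whose coordinates are congruent modulo the maximal ideal are equal. -/
theorem eq_of_same_red (W : Affine K)
    (h₁ : v W.a₁ ≤ 1) (h₂ : v W.a₂ ≤ 1) (h₃ : v W.a₃ ≤ 1) (h₄ : v W.a₄ ≤ 1) (h₆ : v W.a₆ ≤ 1)
    (hΔ : v W.Δ = 1) (h2 : v (2 : K) = 1) {m : ℕ} (hm : v (m : K) = 1)
    {x₁ y₁ x₂ y₂ : K} (hP₁ : W.Nonsingular x₁ y₁) (hP₂ : W.Nonsingular x₂ y₂)
    (hx₁ : v x₁ ≤ 1) (hy₁ : v y₁ ≤ 1) (hx : v (x₁ - x₂) < 1) (hy : v (y₁ - y₂) < 1)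
    (hm₁ : m • Point.some x₁ y₁ hP₁ = 0) (hm₂ : m • Point.some x₂ y₂ hP₂ = 0) :
    Point.some x₁ y₁ hP₁ = Point.some x₂ y₂ hP₂ := by
  have h20 : (2 : K) ≠ 0 := by
    intro h
    rw [h, map_zero] at h2
    exact zero_ne_one h2
  have h40 : (4 : K) ≠ 0 := by
    have : (4 : K) = 2 * 2 := by norm_num
    rw [this]
    exact mul_ne_zero h20 h20
  -- `hf = 1/2`
  obtain ⟨hf, h2hf, hvhf⟩ : ∃ hf : K, 2 * hf = 1 ∧ v hf = 1 :=
    ⟨2⁻¹, mul_inv_cancel₀ h20, by rw [map_inv₀, h2, inv_one]⟩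
  -- integrality in subring form
  have i₁ : W.a₁ ∈ v.integer := h₁
  have i₂ : W.a₂ ∈ v.integer := h₂
  have i₃ : W.a₃ ∈ v.integer := h₃
  have i₄ : W.a₄ ∈ v.integer := h₄
  have i₆ : W.a₆ ∈ v.integer := h₆
  have ihf : hf ∈ v.integer := hvhf.le
  -- a root of the 2-division cubic
  obtain ⟨e, he⟩ : ∃ e : K, 4 * e ^ 3 + W.b₂ * e ^ 2 + 2 * W.b₄ * e + W.b₆ = 0 := by
    have hdeg : (W.Ψ₂Sq).degree ≠ 0 := by
      rw [Polynomial.degree_eq_natDegree (W.Ψ₂Sq_ne_zero h40), W.natDegree_Ψ₂Sq h40]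
      norm_num
    obtain ⟨e, he⟩ := IsAlgClosed.exists_root _ hdeg
    refine ⟨e, ?_⟩
    rw [Polynomial.IsRoot.def, WeierstrassCurve.Ψ₂Sq] at he
    simpa using he
  have ie : e ∈ v.integer := by
    refine val_cubic_root_le_one v h2 ?_ ?_ ?_ he
    · change W.b₂ ∈ v.integer
      rw [WeierstrassCurve.b₂]
      repeat' first
        | assumption
        | exact ofNat_mem _ _
        | apply Subring.add_mem
        | apply Subring.mul_mem
        | apply Subring.pow_mem
    · change W.b₄ ∈ v.integer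
      rw [WeierstrassCurve.b₄]
      repeat' first
        | assumption
        | exact ofNat_mem _ _
        | apply Subring.add_mem
        | apply Subring.mul_mem
    · change W.b₆ ∈ v.integer
      rw [WeierstrassCurve.b₆]
      repeat' first
        | assumption
        | exact ofNat_mem _ _
        | apply Subring.add_mem
        | apply Subring.mul_mem
        | apply Subring.pow_mem
  simp only [WeierstrassCurve.b₂, WeierstrassCurve.b₄, WeierstrassCurve.b₆] at he
  -- the change of variables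
  obtain ⟨s, hs⟩ : ∃ s : K, s = -(W.a₁ * hf) := ⟨_, rfl⟩
  obtain ⟨t, ht⟩ : ∃ t : K, t = -((W.a₃ + e * W.a₁) * hf) := ⟨_, rfl⟩
  have is : s ∈ v.integer := by
    rw [hs]
    exact Subring.neg_mem _ (Subring.mul_mem _ i₁ ihf)
  have it : t ∈ v.integer := by
    rw [ht]
    exact Subring.neg_mem _ (Subring.mul_mem _ (Subring.add_mem _ i₃ (Subring.mul_mem _ ie i₁)) ihf)
  let C : VariableChange K := ⟨1, e, s, t⟩
  have c1 : (C • W).a₁ = W.a₁ + 2 * s := by
    simp [variableChange_a₁, C]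
  have c2 : (C • W).a₂ = W.a₂ - s * W.a₁ + 3 * e - s ^ 2 := by
    simp [variableChange_a₂, C]
  have c3 : (C • W).a₃ = W.a₃ + e * W.a₁ + 2 * t := by
    simp [variableChange_a₃, C]
  have c4 : (C • W).a₄ =
      W.a₄ - s * W.a₃ + 2 * e * W.a₂ - (t + e * s) * W.a₁ + 3 * e ^ 2 - 2 * s * t := by
    simp [variableChange_a₄, C]
  have c6 : (C • W).a₆ =
      W.a₆ + e * W.a₄ + e ^ 2 * W.a₂ + e ^ 3 - t * W.a₃ - t ^ 2 - e * t * W.a₁ := by
    simp [variableChange_a₆, C]
  have cΔ : (C • W).Δ = W.Δ := by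
    simp [variableChange_Δ, C]
  have hLeg : IsLeg (C • W) := by
    refine ⟨?_, ?_, ?_⟩
    · rw [c1, hs]
      linear_combination (-W.a₁) * h2hf
    · rw [c3, ht]
      linear_combination (-(W.a₃ + e * W.a₁)) * h2hf
    · rw [c6, ht]
      linear_combination hf ^ 2 * he +
        (-(e ^ 3 + W.a₂ * e ^ 2 + W.a₄ * e + W.a₆) * (1 + 2 * hf) - (W.a₃ + e * W.a₁) ^ 2 * hf) *
          h2hf
  have ha : v (C • W).a₂ ≤ 1 := by
    change _ ∈ v.integer
    rw [c2]
    repeat' first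
      | assumption
      | exact ofNat_mem _ _
      | apply Subring.add_mem
      | apply Subring.sub_mem
      | apply Subring.mul_mem
      | apply Subring.pow_mem
  have hb : v (C • W).a₄ ≤ 1 := by
    change _ ∈ v.integer
    rw [c4]
    repeat' first
      | assumption
      | exact ofNat_mem _ _
      | apply Subring.add_mem
      | apply Subring.sub_mem
      | apply Subring.mul_mem
      | apply Subring.pow_mem
  have hΔ' : v ((C • W).a₄ * ((C • W).a₂ ^ 2 - 4 * (C • W).a₄)) = 1 := by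
    apply val_leg_disc v h2 ha hb
    have : (16 : K) * (C • W).a₄ ^ 2 * ((C • W).a₂ ^ 2 - 4 * (C • W).a₄) = (C • W).Δ := by
      rw [WeierstrassCurve.Δ, WeierstrassCurve.b₂, WeierstrassCurve.b₄, WeierstrassCurve.b₆,
        WeierstrassCurve.b₈, hLeg.a₁, hLeg.a₃, hLeg.a₆]
      ring
    rw [this, cΔ]
    exact hΔ
  -- the two points on the Legendre model
  have key : ∀ {x y : K} (hP : W.Nonsingular x y),
      ∃ hQ : (C • W).toAffine.Nonsingular (x - e) (y - s * (x - e) - t),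
        Transfer.vcEquiv C rfl (Point.some (x - e) (y - s * (x - e) - t) hQ) =
          Point.some x y hP := by
    intro x y hP
    have eX : Transfer.vcX C (x - e) = x := by
      simp [Transfer.vcX, C]
    have eY : Transfer.vcY C (x - e) (y - s * (x - e) - t) = y := by
      simp only [Transfer.vcY, C, Units.val_one, one_pow, one_mul]
      ring
    have hQ : (C • W).toAffine.Nonsingular (x - e) (y - s * (x - e) - t) := by
      rw [Transfer.nonsingular_iff W C, eX, eY]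
      exact hP
    refine ⟨hQ, ?_⟩
    rw [Transfer.vcEquiv_some, Point.some.injEq]
    exact ⟨eX, eY⟩
  obtain ⟨hQ₁, e₁⟩ := key hP₁
  obtain ⟨hQ₂, e₂⟩ := key hP₂
  have ix₁ : x₁ ∈ v.integer := hx₁
  have iy₁ : y₁ ∈ v.integer := hy₁
  have hX₁ : v (x₁ - e) ≤ 1 := Subring.sub_mem _ ix₁ ie
  have hY₁ : v (y₁ - s * (x₁ - e) - t) ≤ 1 :=
    Subring.sub_mem _ (Subring.sub_mem _ iy₁ (Subring.mul_mem _ is (Subring.sub_mem _ ix₁ ie))) it
  have hXd : v ((x₁ - e) - (x₂ - e)) < 1 := by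
    have : (x₁ - e) - (x₂ - e) = x₁ - x₂ := by ring
    rw [this]
    exact hx
  have hYd : v ((y₁ - s * (x₁ - e) - t) - (y₂ - s * (x₂ - e) - t)) < 1 := by
    have : (y₁ - s * (x₁ - e) - t) - (y₂ - s * (x₂ - e) - t) = (y₁ - y₂) - s * (x₁ - x₂) := by
      ring
    rw [this]
    apply v.map_sub_lt hy
    rw [map_mul]
    calc v s * v (x₁ - x₂) ≤ 1 * v (x₁ - x₂) := mul_le_mul_left is _
      _ = v (x₁ - x₂) := one_mul _
      _ < 1 := hx
  have hE : LegEq (C • W).a₂ (C • W).a₄ (x₁ - e) (y₁ - s * (x₁ - e) - t) :=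
    (hLeg.equation_iff _ _).mp hQ₁.1
  have hns := LocalGood.nonsingular_reduction v h2 ha hb hΔ' hE hX₁ hY₁
  have hin := sub_inE1_of_same_red v hLeg ha hb hQ₁ hQ₂ hX₁ hY₁ hXd hYd hns
  -- torsion
  have t₁ : m • Point.some (x₁ - e) (y₁ - s * (x₁ - e) - t) hQ₁ = 0 := by
    apply (Transfer.vcEquiv C rfl).injective
    rw [map_nsmul, e₁, hm₁, map_zero]
  have t₂ : m • Point.some (x₂ - e) (y₂ - s * (x₂ - e) - t) hQ₂ = 0 := by
    apply (Transfer.vcEquiv C rfl).injective
    rw [map_nsmul, e₂, hm₂, map_zero]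
  have htors : m • (Point.some (x₁ - e) (y₁ - s * (x₁ - e) - t) hQ₁ -
      Point.some (x₂ - e) (y₂ - s * (x₂ - e) - t) hQ₂) = 0 := by
    rw [smul_sub, t₁, t₂, sub_zero]
  have h0 := E1_torsion_free v hLeg ha hb hm hin htors
  rw [← e₁, ← e₂, sub_eq_zero.mp h0]

end Main

end Fermat.Agent.EC.FrobFixed
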