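/-
EC / FrobFixed, layer 3 (conditional on the division-polynomial criterion `TorsionCriterion`):
if `p` divides the number of points of the reduction mod `ℓ` of an integral Weierstrass model
(`ℓ` odd, good, `ℓ ≠ p`), then for every valuation subring `A` over `ℓ` there is a nonzero
`p`-torsion point fixed by the whole decomposition group of `A`.
-/
import Mathlib
import Fermat.Prelude.Def_FLTPrelim_Modularity
import Fermat.Prelude.Def_FLTPrelim_GaloisRep
import Fermat.Prelude.Def_FLTPrelim_Ramification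
import Fermat.Prelude.Def_EllipticCurve_FrobeniusTrace
import Fermat.Agent.S05.FreyTransfer
import Fermat.Agent.EC.FrobFixed.Val
import Fermat.Agent.EC.FrobFixed.SameRed
import Fermat.Agent.EC.FrobFixed.Lift

set_option autoImplicit false

namespace Fermat.Agent.EC.FrobFixed

open WeierstrassCurve WeierstrassCurve.Affine
open scoped WeierstrassCurve.Affine

section Gen

variable {K : Type*} [Field K] [Algebra ℚ K]

/-- The base change to `K` of the rational curve attached to an integral model is the base change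
of the integral model. -/
theorem baseChange_eq_map (W : WeierstrassCurve ℤ) :
    ((W.map (Int.castRingHom ℚ)).toAffine⁄K) = W.map (Int.castRingHom K) := by
  change (W.map (Int.castRingHom ℚ)).map (algebraMap ℚ K) = _
  rw [WeierstrassCurve.map_map]
  congr 1
  exact RingHom.ext_int _ _

end Gen

section Gen2

variable {K : Type*} [Field K] {Γ₀ : Type*} [LinearOrderedCommGroupWithZero Γ₀]
  (v : Valuation K Γ₀)

/-- The coefficients of the base change of an integral model are integral. -/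
theorem val_coeffs_le_one (W : WeierstrassCurve ℤ) (W' : WeierstrassCurve K)
    (hW' : W' = W.map (Int.castRingHom K)) :
    v W'.a₁ ≤ 1 ∧ v W'.a₂ ≤ 1 ∧ v W'.a₃ ≤ 1 ∧ v W'.a₄ ≤ 1 ∧ v W'.a₆ ≤ 1 := by
  subst hW'
  simp only [map_a₁, map_a₂, map_a₃, map_a₄, map_a₆, eq_intCast]
  exact ⟨val_intCast_le_one v _, val_intCast_le_one v _, val_intCast_le_one v _,
    val_intCast_le_one v _, val_intCast_le_one v _⟩

/-- The discriminant of the base change of an integral model with good reduction is a unit. -/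
theorem val_disc_eq_one (W : WeierstrassCurve ℤ) (W' : WeierstrassCurve K)
    (hW' : W' = W.map (Int.castRingHom K)) {ℓ : ℕ} (hℓp : ℓ.Prime) (hℓ : v (ℓ : K) < 1)
    (hΔ : ¬ (ℓ : ℤ) ∣ W.Δ) : v W'.Δ = 1 := by
  subst hW'
  rw [map_Δ, eq_intCast]
  exact val_intCast_eq_one v hℓp hℓ hΔ

end Gen2

section Fixed

variable {K : Type*} [Field K] [DecidableEq K] [IsAlgClosed K] [CharZero K] [Algebra ℚ K]

/-- **Fixed torsion point, generic form.** -/
theorem exists_fixed_point (hK : TorsionCriterion K) (W : WeierstrassCurve ℤ) {ℓ p : ℕ}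
    [Fact ℓ.Prime] (hℓ2 : ℓ ≠ 2) (hF : TorsionCriterion (ZMod ℓ)) (hp : p.Prime) (hℓp : ℓ ≠ p)
    (hgood : ¬ (ℓ : ℤ) ∣ W.Δ)
    (hdvd : p ∣ Nat.card (W.map (Int.castRingHom (ZMod ℓ))).toAffine.Point)
    (A : ValuationSubring K) (hA : A.valuation (ℓ : K) < 1) :
    ∃ P : ((W.map (Int.castRingHom ℚ)).toAffine⁄K).Point, P ≠ 0 ∧ p • P = 0 ∧
      ∀ σ : K ≃ₐ[ℚ] K, σ ∈ A.decompositionSubgroup ℚ →
        Point.map (W' := (W.map (Int.castRingHom ℚ)).toAffine) σ.toAlgHom P = P := by
  have hℓp' : ℓ.Prime := Fact.out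
  -- Cauchy
  have : Fact p.Prime := ⟨hp⟩
  obtain ⟨Pbar, hPbar⟩ := exists_prime_addOrderOf_dvd_card' p hdvd
  have hPbar0 : Pbar ≠ 0 := by
    rintro rfl
    rw [addOrderOf_zero] at hPbar
    exact hp.one_lt.ne hPbar
  have hPbar_tors : (p : ℤ) • Pbar = 0 := by
    rw [natCast_zsmul, ← hPbar]
    exact addOrderOf_nsmul_eq_zero Pbar
  rcases Pbar with _ | ⟨xb, yb, hb⟩
  · exact absurd rfl hPbar0
  obtain ⟨a, rfl⟩ := ZMod.intCast_surjective xb
  obtain ⟨b, rfl⟩ := ZMod.intCast_surjective yb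
  have hnp : ¬ ℓ ∣ p := fun h => hℓp ((Nat.prime_dvd_prime_iff_eq hℓp' hp).mp h)
  obtain ⟨x, y, h, htors, hxa, hyb⟩ :=
    exists_lift A.valuation hK W hA hF hgood hnp hb hPbar_tors _ (baseChange_eq_map W)
  rw [natCast_zsmul] at htors
  refine ⟨Point.some x y h, Point.some_ne_zero _, htors, ?_⟩
  intro σ hσ
  rw [Point.map_some]
  symm
  obtain ⟨i₁, i₂, i₃, i₄, i₆⟩ := val_coeffs_le_one A.valuation W _ (baseChange_eq_map (K := K) W)
  have hΔv := val_disc_eq_one A.valuation W _ (baseChange_eq_map (K := K) W) hℓp' hA hgood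
  have h2v : A.valuation (2 : K) = 1 := by
    have := val_intCast_eq_one A.valuation hℓp' hA (z := 2) (by
      intro h
      have h' : ℓ ∣ 2 := by exact_mod_cast h
      exact hℓ2 ((Nat.prime_dvd_prime_iff_eq hℓp' Nat.prime_two).mp h'))
    simpa using this
  have hpv : A.valuation (p : K) = 1 := by
    have := val_intCast_eq_one A.valuation hℓp' hA (z := p) (by
      intro h
      exact hnp (Int.natCast_dvd_natCast.mp h))
    simpa using this
  have ia : A.valuation (a : K) ≤ 1 := val_intCast_le_one _ a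
  have ib : A.valuation (b : K) ≤ 1 := val_intCast_le_one _ b
  have ix : A.valuation x ≤ 1 := by
    have : x = (x - a) + a := by ring
    rw [this]
    exact (A.valuation.map_add _ _).trans (max_le hxa.le ia)
  have iy : A.valuation y ≤ 1 := by
    have : y = (y - b) + b := by ring
    rw [this]
    exact (A.valuation.map_add _ _).trans (max_le hyb.le ib)
  have hx' : A.valuation (x - σ.toAlgHom x) < 1 := by
    have e : x - σ.toAlgHom x = (x - a) - σ (x - a) := by
      rw [map_sub, map_intCast]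
      simp
    rw [e]
    exact A.valuation.map_sub_lt hxa (decomp_val_lt_one A σ hσ hxa)
  have hy' : A.valuation (y - σ.toAlgHom y) < 1 := by
    have e : y - σ.toAlgHom y = (y - b) - σ (y - b) := by
      rw [map_sub, map_intCast]
      simp
    rw [e]
    exact A.valuation.map_sub_lt hyb (decomp_val_lt_one A σ hσ hyb)
  have htorsσ : p • Point.map (W' := (W.map (Int.castRingHom ℚ)).toAffine) σ.toAlgHom
      (Point.some x y h) = 0 := by
    rw [← map_nsmul, htors, map_zero]
  rw [Point.map_some] at htorsσ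
  exact eq_of_same_red A.valuation _ i₁ i₂ i₃ i₄ i₆ hΔv h2v hpv h _ ix iy hx' hy' htors htorsσ

end Fixed

section Qbar

local notation "Qb" => AlgebraicClosure ℚ

/-- `p ∣ ℓ + 1 - a_ℓ` means that `p` divides the number of points of the reduction. -/
theorem dvd_card_of_dvd (W : WeierstrassCurve ℤ) {ℓ p : ℕ}
    (hdvd : (p : ℤ) ∣ (ℓ : ℤ) + 1 - W.apOfModel ℓ) :
    p ∣ Nat.card (W.map (Int.castRingHom (ZMod ℓ))).toAffine.Point := by
  have e : (ℓ : ℤ) + 1 - W.apOfModel ℓ =
      (Nat.card (W.map (Int.castRingHom (ZMod ℓ))).toAffine.Point : ℤ) := by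
    simp only [WeierstrassCurve.apOfModel, WeierstrassCurve.traceOfFrobenius,
      WeierstrassCurve.card, WeierstrassCurve.reductionMod, Nat.card_zmod]
    ring
  rw [e] at hdvd
  exact Int.natCast_dvd_natCast.mp hdvd

/-- **Fixed torsion point, integral model** (conditional on `TorsionCriterion`). -/
theorem exists_fixed_torsionBy_of_criterion (hK : TorsionCriterion Qb) (W : WeierstrassCurve ℤ)
    {ℓ p : ℕ} [Fact ℓ.Prime] (hℓ2 : ℓ ≠ 2) (hF : TorsionCriterion (ZMod ℓ)) (hp : p.Prime)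
    (hℓp : ℓ ≠ p) (hgood : W.IsGoodPrimeFor ℓ)
    (hdvd : (p : ℤ) ∣ (ℓ : ℤ) + 1 - W.apOfModel ℓ)
    (A : ValuationSubring Qb) (hA : A.LiesOverPrime ℓ) :
    ∃ x : Submodule.torsionBy ℤ ((W.map (Int.castRingHom ℚ)).toAffine⁄Qb).Point p,
      x ≠ 0 ∧ ∀ σ ∈ A.decompositionSubgroup ℚ, σ • x = x := by
  have hAv : A.valuation ((ℓ : ℕ) : Qb) < 1 := by
    have : (ℓ : Qb) ∈ A.nonunits := hA
    rwa [ValuationSubring.mem_nonunits_iff] at this
  obtain ⟨P, hP0, hPp, hPσ⟩ :=
    exists_fixed_point hK W hℓ2 hF hp hℓp hgood (dvd_card_of_dvd W hdvd) A hAv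
  have hmem : P ∈ Submodule.torsionBy ℤ ((W.map (Int.castRingHom ℚ)).toAffine⁄Qb).Point p := by
    rw [Submodule.mem_torsionBy_iff, natCast_zsmul]
    exact hPp
  refine ⟨⟨P, hmem⟩, ?_, ?_⟩
  · intro h
    exact hP0 (congrArg Subtype.val h)
  · intro σ hσ
    apply Subtype.ext
    exact hPσ σ hσ

/-- **Fixed torsion point, rational curve with an integral model** (conditional on
`TorsionCriterion`). -/
theorem exists_fixed_torsionBy_of_model_of_criterion (hK : TorsionCriterion Qb)
    (E : WeierstrassCurve ℚ) {W : WeierstrassCurve ℤ} (hW : W.IsIntegralModelOf E)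
    {ℓ p : ℕ} [Fact ℓ.Prime] (hℓ2 : ℓ ≠ 2) (hF : TorsionCriterion (ZMod ℓ)) (hp : p.Prime)
    (hℓp : ℓ ≠ p) (hgood : W.IsGoodPrimeFor ℓ)
    (hdvd : (p : ℤ) ∣ (ℓ : ℤ) + 1 - W.apOfModel ℓ)
    (A : ValuationSubring Qb) (hA : A.LiesOverPrime ℓ) :
    ∃ x : Submodule.torsionBy ℤ (E⁄Qb).Point p,
      x ≠ 0 ∧ ∀ σ ∈ A.decompositionSubgroup ℚ, σ • x = x := by
  obtain ⟨C, hC⟩ := hW
  obtain ⟨x, hx0, hxσ⟩ :=
    exists_fixed_torsionBy_of_criterion hK W hℓ2 hF hp hℓp hgood hdvd A hA
  set e := S05.Transfer.ratEquiv (K := Qb) C hC with he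
  have hmem : e (x : ((W.map (Int.castRingHom ℚ)).toAffine⁄Qb).Point) ∈
      Submodule.torsionBy ℤ (E⁄Qb).Point p := by
    rw [Submodule.mem_torsionBy_iff]
    have hx := x.2
    rw [Submodule.mem_torsionBy_iff] at hx
    rw [← map_zsmul, hx, map_zero]
  refine ⟨⟨_, hmem⟩, ?_, ?_⟩
  · intro h
    apply hx0
    apply Subtype.ext
    have h' : e (x : ((W.map (Int.castRingHom ℚ)).toAffine⁄Qb).Point) = 0 :=
      congrArg Subtype.val h
    exact (map_eq_zero_iff e e.injective).mp h'
  · intro σ hσ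
    apply Subtype.ext
    change σ • e (x : ((W.map (Int.castRingHom ℚ)).toAffine⁄Qb).Point) = e x
    rw [he, ← S05.Transfer.ratEquiv_smul, ← he]
    congr 1
    exact congrArg Subtype.val (hxσ σ hσ)

end Qbar

end Fermat.Agent.EC.FrobFixed
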