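/-
EC / FrobFixed, final (unconditional) statements: EC task 144 (EC input of S41 step 3).

If `p` divides the number of points of the reduction mod `ℓ` of an integral Weierstrass model `W`
(`ℓ` an odd prime of good reduction, `ℓ ≠ p`), i.e. `a_ℓ(W) ≡ ℓ + 1 (mod p)`, then for every
valuation subring `A` of `ℚ̄` over `ℓ` there is a nonzero `p`-torsion point fixed by the whole
decomposition group of `A`; in particular every Frobenius element at `A` has a nonzero fixed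
point on the `p`-torsion.
-/
import Mathlib
import Fermat.Agent.Lib.ECTors.MulFormula
import Fermat.Agent.EC.FrobFixed.Main

set_option autoImplicit false

namespace Fermat.Agent.EC.FrobFixed

open WeierstrassCurve WeierstrassCurve.Affine
open scoped WeierstrassCurve.Affine

/-- The division-polynomial criterion for torsion holds over every field (EC-TORS (C)). -/
theorem torsionCriterion (F : Type*) [Field F] [DecidableEq F] : TorsionCriterion F :=
  fun W _ _ h n => Fermat.Agent.Lib.ECTors.zsmul_eq_zero_iff W h n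

local notation "Qb" => AlgebraicClosure ℚ

/-- **Fixed torsion point, integral model.** -/
theorem exists_fixed_torsionBy (W : WeierstrassCurve ℤ) {ℓ p : ℕ} (hℓ : ℓ.Prime) (hℓ2 : ℓ ≠ 2)
    (hp : p.Prime) (hℓp : ℓ ≠ p) (hgood : W.IsGoodPrimeFor ℓ)
    (hdvd : (p : ℤ) ∣ (ℓ : ℤ) + 1 - W.apOfModel ℓ)
    (A : ValuationSubring Qb) (hA : A.LiesOverPrime ℓ) :
    ∃ x : Submodule.torsionBy ℤ ((W.map (Int.castRingHom ℚ)).toAffine⁄Qb).Point p,
      x ≠ 0 ∧ ∀ σ ∈ A.decompositionSubgroup ℚ, σ • x = x := by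
  have : Fact ℓ.Prime := ⟨hℓ⟩
  exact exists_fixed_torsionBy_of_criterion (torsionCriterion _) W hℓ2 (torsionCriterion _) hp hℓp
    hgood hdvd A hA

/-- **Fixed torsion point, rational curve with an integral model.** -/
theorem exists_fixed_torsionBy_of_model (E : WeierstrassCurve ℚ) {W : WeierstrassCurve ℤ}
    (hW : W.IsIntegralModelOf E) {ℓ p : ℕ} (hℓ : ℓ.Prime) (hℓ2 : ℓ ≠ 2) (hp : p.Prime)
    (hℓp : ℓ ≠ p) (hgood : W.IsGoodPrimeFor ℓ)
    (hdvd : (p : ℤ) ∣ (ℓ : ℤ) + 1 - W.apOfModel ℓ)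
    (A : ValuationSubring Qb) (hA : A.LiesOverPrime ℓ) :
    ∃ x : Submodule.torsionBy ℤ (E⁄Qb).Point p,
      x ≠ 0 ∧ ∀ σ ∈ A.decompositionSubgroup ℚ, σ • x = x := by
  have : Fact ℓ.Prime := ⟨hℓ⟩
  exact exists_fixed_torsionBy_of_model_of_criterion (torsionCriterion _) E hW hℓ2
    (torsionCriterion _) hp hℓp hgood hdvd A hA

/-- **Frobenius has a fixed vector.**  If `a_ℓ ≡ ℓ + 1 (mod p)` then every Frobenius element at a
valuation subring over `ℓ` fixes a nonzero point of `E[p]`. -/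
theorem exists_frobenius_fixed (E : WeierstrassCurve ℚ) {W : WeierstrassCurve ℤ}
    (hW : W.IsIntegralModelOf E) {ℓ p : ℕ} (hℓ : ℓ.Prime) (hℓ2 : ℓ ≠ 2) (hp : p.Prime)
    (hℓp : ℓ ≠ p) (hgood : W.IsGoodPrimeFor ℓ)
    (hdvd : (p : ℤ) ∣ (ℓ : ℤ) + 1 - W.apOfModel ℓ)
    (A : ValuationSubring Qb) (hA : A.LiesOverPrime ℓ)
    (σ : Qb ≃ₐ[ℚ] Qb) (hσ : A.IsFrobeniusAt σ ℓ) :
    ∃ x : Submodule.torsionBy ℤ (E⁄Qb).Point p, x ≠ 0 ∧ σ • x = x := by
  obtain ⟨x, hx0, hx⟩ := exists_fixed_torsionBy_of_model E hW hℓ hℓ2 hp hℓp hgood hdvd A hA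
  exact ⟨x, hx0, hx σ hσ.mem_decompositionSubgroup⟩

end Fermat.Agent.EC.FrobFixed
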