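/-
EC / FrobFixed: a multiplicatively closed set of endomorphisms of a 2-dimensional `ZMod p`-vector
space, each of which has a nonzero fixed vector, has a stable line.
(Either all the fixed lines `ker (f - 1)` coincide, or all the images `range (f - 1)` coincide.)
-/
import Mathlib
import Fermat.Agent.EC.GlueLine

set_option autoImplicit false

namespace Fermat.Agent.EC.FrobFixed

section StableLine

variable {p : ℕ} [Fact p.Prime] {V : Type*} [AddCommGroup V] [Module (ZMod p) V] [Finite V]

/-- Two proper nonzero submodules sharing a nonzero vector coincide. -/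
theorem eq_of_common_mem (hV : Nat.card V ≤ p ^ 2) {N₁ N₂ : Submodule (ZMod p) V}
    (h₁b : N₁ ≠ ⊥) (h₁t : N₁ ≠ ⊤) (h₂b : N₂ ≠ ⊥) (h₂t : N₂ ≠ ⊤) {e : V} (he0 : e ≠ 0)
    (he₁ : e ∈ N₁) (he₂ : e ∈ N₂) : N₁ = N₂ := by
  apply le_antisymm
  · intro y hy
    obtain ⟨k, rfl⟩ := line_span hV N₁ h₁b h₁t he₁ he0 y hy
    exact N₂.smul_mem k he₂
  · intro y hy
    obtain ⟨k, rfl⟩ := line_span hV N₂ h₂b h₂t he₂ he0 y hy
    exact N₁.smul_mem k he₁

omit [Finite V] in
theorem ker_sub_one_ne_bot {f : Module.End (ZMod p) V} (hf : ∃ v : V, v ≠ 0 ∧ f v = v) :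
    LinearMap.ker (f - 1) ≠ ⊥ := by
  obtain ⟨v, hv0, hv⟩ := hf
  intro h
  have hmem : v ∈ LinearMap.ker (f - 1) := by
    rw [LinearMap.mem_ker, LinearMap.sub_apply, Module.End.one_apply, hv, sub_self]
  rw [h, Submodule.mem_bot] at hmem
  exact hv0 hmem

omit [Finite V] in
theorem ker_sub_one_ne_top {f : Module.End (ZMod p) V} (hf : f ≠ 1) :
    LinearMap.ker (f - 1) ≠ ⊤ := by
  intro h
  rw [LinearMap.ker_eq_top] at h
  exact hf (sub_eq_zero.mp h)

omit [Finite V] in
theorem range_sub_one_ne_bot {f : Module.End (ZMod p) V} (hf : f ≠ 1) :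
    LinearMap.range (f - 1) ≠ ⊥ := by
  intro h
  rw [LinearMap.range_eq_bot] at h
  exact hf (sub_eq_zero.mp h)

theorem range_sub_one_ne_top {f : Module.End (ZMod p) V} (hf : ∃ v : V, v ≠ 0 ∧ f v = v) :
    LinearMap.range (f - 1) ≠ ⊤ := by
  intro h
  have hsurj : Function.Surjective ⇑(f - 1) := LinearMap.range_eq_top.mp h
  have hinj : Function.Injective ⇑(f - 1) := Finite.injective_iff_surjective.mpr hsurj
  exact ker_sub_one_ne_bot hf (LinearMap.ker_eq_bot.mpr hinj)

/-- Key alternative: for two nontrivial endomorphisms with fixed vectors whose product has a fixed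
vector, either the fixed lines or the images of `f - 1`, `g - 1` coincide. -/
theorem ker_eq_or_range_eq (hV : Nat.card V ≤ p ^ 2) {f g : Module.End (ZMod p) V}
    (hf1 : f ≠ 1) (hg1 : g ≠ 1) (hf : ∃ v : V, v ≠ 0 ∧ f v = v) (hg : ∃ v : V, v ≠ 0 ∧ g v = v)
    (hfg : ∃ v : V, v ≠ 0 ∧ (f * g) v = v) :
    LinearMap.ker (f - 1) = LinearMap.ker (g - 1) ∨
      LinearMap.range (f - 1) = LinearMap.range (g - 1) := by
  by_contra hcon
  rw [not_or] at hcon
  obtain ⟨hK, hR⟩ := hcon
  obtain ⟨w, hw0, hw⟩ := hfg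
  rw [Module.End.mul_apply] at hw
  -- `g w ≠ w`
  have hgw : g w - w ≠ 0 := by
    intro h0
    have hgw' : g w = w := sub_eq_zero.mp h0
    rw [hgw'] at hw
    apply hK
    refine eq_of_common_mem hV (ker_sub_one_ne_bot hf) (ker_sub_one_ne_top hf1)
      (ker_sub_one_ne_bot hg) (ker_sub_one_ne_top hg1) hw0 ?_ ?_
    · rw [LinearMap.mem_ker, LinearMap.sub_apply, Module.End.one_apply, hw, sub_self]
    · rw [LinearMap.mem_ker, LinearMap.sub_apply, Module.End.one_apply, hgw', sub_self]
  apply hR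
  refine eq_of_common_mem hV (range_sub_one_ne_bot hf1) (range_sub_one_ne_top hf)
    (range_sub_one_ne_bot hg1) (range_sub_one_ne_top hg) hgw ?_ ?_
  · refine ⟨-(g w), ?_⟩
    rw [map_neg, LinearMap.sub_apply, Module.End.one_apply, hw]
    abel
  · exact ⟨w, by rw [LinearMap.sub_apply, Module.End.one_apply]⟩

/-- **Stable line.**  A multiplicatively closed set of endomorphisms of a `ZMod p`-module with
`p ^ 2` elements, each with a nonzero fixed vector, has a stable proper nonzero submodule. -/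
theorem exists_stable_line (hV : Nat.card V = p ^ 2) (S : Set (Module.End (ZMod p) V))
    (hmul : ∀ f ∈ S, ∀ g ∈ S, f * g ∈ S) (hfix : ∀ f ∈ S, ∃ v : V, v ≠ 0 ∧ f v = v) :
    ∃ N : Submodule (ZMod p) V, N ≠ ⊥ ∧ N ≠ ⊤ ∧ ∀ f ∈ S, ∀ x ∈ N, f x ∈ N := by
  have hp : p.Prime := Fact.out
  have hV' : Nat.card V ≤ p ^ 2 := hV.le
  by_cases h1 : ∀ f ∈ S, f = 1
  · -- any line is stable
    have hnt : Nontrivial V := by
      rw [← Finite.one_lt_card_iff_nontrivial, hV]
      exact Nat.one_lt_pow (by norm_num) hp.one_lt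
    obtain ⟨e, he0⟩ := exists_ne (0 : V)
    refine ⟨Submodule.span (ZMod p) {e}, ?_, ?_, ?_⟩
    · intro h
      have : e ∈ Submodule.span (ZMod p) {e} := Submodule.mem_span_singleton_self e
      rw [h, Submodule.mem_bot] at this
      exact he0 this
    · intro h
      have hsurj : Function.Surjective (fun k : ZMod p => k • e) := by
        intro y
        have : y ∈ Submodule.span (ZMod p) {e} := by rw [h]; exact Submodule.mem_top
        exact Submodule.mem_span_singleton.mp this
      have hle := Nat.card_le_card_of_surjective _ hsurj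
      rw [hV, Nat.card_zmod] at hle
      have : p < p ^ 2 := by
        calc p = p ^ 1 := (pow_one p).symm
          _ < p ^ 2 := Nat.pow_lt_pow_right hp.one_lt (by norm_num)
      omega
    · intro f hf x hx
      rw [h1 f hf, Module.End.one_apply]
      exact hx
  · rw [not_forall] at h1
    obtain ⟨f₀, h1⟩ := h1
    rw [Classical.not_imp] at h1
    obtain ⟨hf₀S, hf₀⟩ := h1
    by_cases hK : ∀ f ∈ S, f ≠ 1 → LinearMap.ker (f - 1) = LinearMap.ker (f₀ - 1)
    · refine ⟨LinearMap.ker (f₀ - 1), ker_sub_one_ne_bot (hfix f₀ hf₀S), ker_sub_one_ne_top hf₀, ?_⟩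
      intro f hf x hx
      by_cases hf1 : f = 1
      · rw [hf1, Module.End.one_apply]
        exact hx
      · have hx' : x ∈ LinearMap.ker (f - 1) := by rw [hK f hf hf1]; exact hx
        rw [LinearMap.mem_ker, LinearMap.sub_apply, Module.End.one_apply, sub_eq_zero] at hx'
        rw [hx']
        exact hx
    · by_cases hR : ∀ f ∈ S, f ≠ 1 → LinearMap.range (f - 1) = LinearMap.range (f₀ - 1)
      · refine ⟨LinearMap.range (f₀ - 1), range_sub_one_ne_bot hf₀,
          range_sub_one_ne_top (hfix f₀ hf₀S), ?_⟩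
        intro f hf x hx
        by_cases hf1 : f = 1
        · rw [hf1, Module.End.one_apply]
          exact hx
        · have hmem : (f - 1) x ∈ LinearMap.range (f₀ - 1) := by
            rw [← hR f hf hf1]
            exact LinearMap.mem_range_self _ x
          have e : f x = x + (f - 1) x := by
            rw [LinearMap.sub_apply, Module.End.one_apply]
            abel
          rw [e]
          exact Submodule.add_mem _ hx hmem
      · exfalso
        rw [not_forall] at hK hR
        obtain ⟨f₁, hK⟩ := hK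
        obtain ⟨f₂, hR⟩ := hR
        rw [Classical.not_imp] at hK hR
        obtain ⟨hf₁S, hK⟩ := hK
        obtain ⟨hf₂S, hR⟩ := hR
        rw [Classical.not_imp] at hK hR
        obtain ⟨hf₁, hK⟩ := hK
        obtain ⟨hf₂, hR⟩ := hR
        have a01 := ker_eq_or_range_eq hV' hf₀ hf₁ (hfix f₀ hf₀S) (hfix f₁ hf₁S)
          (hfix _ (hmul f₀ hf₀S f₁ hf₁S))
        have a02 := ker_eq_or_range_eq hV' hf₀ hf₂ (hfix f₀ hf₀S) (hfix f₂ hf₂S)
          (hfix _ (hmul f₀ hf₀S f₂ hf₂S))
        have a12 := ker_eq_or_range_eq hV' hf₁ hf₂ (hfix f₁ hf₁S) (hfix f₂ hf₂S)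
          (hfix _ (hmul f₁ hf₁S f₂ hf₂S))
        have r01 : LinearMap.range (f₀ - 1) = LinearMap.range (f₁ - 1) :=
          a01.resolve_left (fun h => hK h.symm)
        have k02 : LinearMap.ker (f₀ - 1) = LinearMap.ker (f₂ - 1) :=
          a02.resolve_right (fun h => hR h.symm)
        rcases a12 with h | h
        · exact hK (h.trans k02.symm)
        · exact hR (h.symm.trans r01.symm)

end StableLine

end Fermat.Agent.EC.FrobFixed
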