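/-
EC / FrobFixed: S41 step 3 ("non-Eisenstein").

If the mod-`p` representation of an elliptic curve `E / ℚ` with integral model `W` is irreducible,
then outside every finite set of primes there is a good prime `ℓ ≠ p` with
`a_ℓ(W) ≢ ℓ + 1 (mod p)`.

The Frobenius-density input (FROB: `exists_frobenius_generating`) is an explicit hypothesis
`FrobGenerating`.
-/
import Mathlib
import Fermat.Prelude.Def_FLTPrelim_Modularity
import Fermat.Prelude.Def_FLTPrelim_GaloisRep
import Fermat.Prelude.Def_FLTPrelim_Ramification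
import Fermat.Prelude.Def_EllipticCurve_FrobeniusTrace
import Fermat.Agent.Lib.ECBiquad.Main
import Fermat.Agent.Lib.GalQbar
import Fermat.Agent.EC.FrobFixed.Final
import Fermat.Agent.EC.FrobFixed.StableLine

set_option autoImplicit false

namespace Fermat.Agent.EC.FrobFixed

open WeierstrassCurve WeierstrassCurve.Affine WeierstrassCurve.Affine.Point
open scoped WeierstrassCurve.Affine

local notation "Qb" => AlgebraicClosure ℚ
local notation "GQ" => (AlgebraicClosure ℚ ≃ₐ[ℚ] AlgebraicClosure ℚ)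

/-- The deliverable of the FROB project (`Fermat.Agent.Frob.exists_frobenius_generating`), as a
predicate: every element of `G_ℚ` generates, on any finite extension `F`, the same cyclic group as
a Frobenius element at some prime outside any given finite set. -/
def FrobGenerating : Prop :=
  ∀ (F : IntermediateField ℚ Qb) [FiniteDimensional ℚ F] (S : Finset ℕ) (g : GQ),
    ∃ ℓ : ℕ, ℓ.Prime ∧ ℓ ∉ S ∧ ∃ (A : ValuationSubring Qb) (σ : GQ) (k j : ℕ),
      A.LiesOverPrime ℓ ∧ A.IsFrobeniusAt σ ℓ ∧ (∀ x ∈ F, g x = (σ ^ k) x) ∧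
        (∀ x ∈ F, σ x = (g ^ j) x)

section Coord

variable (E : WeierstrassCurve ℚ)

/-- The `x`-coordinate of a point (`0` at infinity). -/
noncomputable def coordX : (E⁄Qb).Point → Qb
  | .zero => 0
  | .some x _ _ => x

/-- The `y`-coordinate of a point (`0` at infinity). -/
noncomputable def coordY : (E⁄Qb).Point → Qb
  | .zero => 0
  | .some _ y _ => y

/-- The set of coordinates of the `n`-torsion points. -/
def coordSet (n : ℕ) : Set Qb :=
  Set.range (fun P : Submodule.torsionBy ℤ (E⁄Qb).Point n => coordX E (P : (E⁄Qb).Point)) ∪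
    Set.range (fun P : Submodule.torsionBy ℤ (E⁄Qb).Point n => coordY E (P : (E⁄Qb).Point))

/-- The field generated by the coordinates of the `n`-torsion points. -/
noncomputable def torsionField (n : ℕ) : IntermediateField ℚ Qb :=
  IntermediateField.adjoin ℚ (coordSet E n)

theorem finiteDimensional_torsionField (n : ℕ)
    [Finite (Submodule.torsionBy ℤ (E⁄Qb).Point n)] :
    FiniteDimensional ℚ (torsionField E n) := by
  have hfin : (coordSet E n).Finite := (Set.finite_range _).union (Set.finite_range _)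
  have : Finite (coordSet E n) := hfin
  have halg : Algebra.IsAlgebraic ℚ Qb := Lib.GalQbar.isAlgebraic_rat
  exact IntermediateField.finiteDimensional_adjoin (fun x _ => (halg.isAlgebraic x).isIntegral)

/-- Two automorphisms agreeing on the torsion field act in the same way on torsion points. -/
theorem smul_eq_of_agree (n : ℕ) (g h : GQ) (hgh : ∀ z ∈ torsionField E n, g z = h z)
    (P : Submodule.torsionBy ℤ (E⁄Qb).Point n) : g • P = h • P := by
  apply Subtype.ext
  change g • (P : (E⁄Qb).Point) = h • (P : (E⁄Qb).Point)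
  have hx : coordX E (P : (E⁄Qb).Point) ∈ torsionField E n :=
    IntermediateField.subset_adjoin ℚ _ (Or.inl ⟨P, rfl⟩)
  have hy : coordY E (P : (E⁄Qb).Point) ∈ torsionField E n :=
    IntermediateField.subset_adjoin ℚ _ (Or.inr ⟨P, rfl⟩)
  rcases hP : (P : (E⁄Qb).Point) with _ | ⟨x, y, hxy⟩
  · rfl
  · rw [hP] at hx hy
    rw [algEquiv_smul_def, algEquiv_smul_def, Point.map_some, Point.map_some, Point.some.injEq]
    exact ⟨hgh x hx, hgh y hy⟩

end Coord

/-- Powers of an element fixing `x` fix `x`. -/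
theorem pow_smul_eq_self {G M : Type*} [Monoid G] [MulAction G M] {σ : G} {x : M}
    (h : σ • x = x) (k : ℕ) : σ ^ k • x = x := by
  induction k with
  | zero => rw [pow_zero, one_smul]
  | succ k ih => rw [pow_succ, mul_smul, h, ih]

/-- The discriminant of an integral model of an elliptic curve is nonzero. -/
theorem model_Δ_ne_zero (E : WeierstrassCurve ℚ) [E.IsElliptic] {W : WeierstrassCurve ℤ}
    (hW : W.IsIntegralModelOf E) : W.Δ ≠ 0 := by
  obtain ⟨C, hC⟩ := hW
  intro h0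
  have h1 : (C • E).Δ = 0 := by
    rw [hC, map_Δ, h0, _root_.map_zero]
  rw [variableChange_Δ] at h1
  rcases mul_eq_zero.mp h1 with h2 | h2
  · exact (pow_ne_zero 12 (Units.ne_zero _)) h2
  · exact E.isUnit_Δ.ne_zero h2

/-- **S41 step 3 (non-Eisenstein)**, conditional on the Frobenius-density statement. -/
theorem exists_good_prime_not_dvd_of_frob (hFrob : FrobGenerating) (E : WeierstrassCurve ℚ)
    [E.IsElliptic] {W : WeierstrassCurve ℤ} (hW : W.IsIntegralModelOf E) {p : ℕ} (hp : p.Prime)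
    (hirr : GaloisRepIsIrreducible (K := Qb) ℚ E p) (S : Finset ℕ) :
    ∃ ℓ : ℕ, ℓ.Prime ∧ ℓ ∉ S ∧ ℓ ≠ p ∧ W.IsGoodPrimeFor ℓ ∧
      ¬ (p : ℤ) ∣ (ℓ : ℤ) + 1 - W.apOfModel ℓ := by
  by_contra hcon
  have hall : ∀ ℓ : ℕ, ℓ.Prime → ℓ ∉ S → ℓ ≠ p → W.IsGoodPrimeFor ℓ →
      (p : ℤ) ∣ (ℓ : ℤ) + 1 - W.apOfModel ℓ := by
    intro ℓ h1 h2 h3 h4
    by_contra h5
    exact hcon ⟨ℓ, h1, h2, h3, h4, h5⟩
  have : Fact p.Prime := ⟨hp⟩
  have hEΔ : E.Δ ≠ 0 := E.isUnit_Δ.ne_zero
  have hWΔ : W.Δ ≠ 0 := model_Δ_ne_zero E hW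
  have hfin : Finite (Submodule.torsionBy ℤ (E⁄Qb).Point p) :=
    Lib.ECBiquad.finite_torsionBy_rat E hEΔ hp.ne_zero
  have hcard : Nat.card (Submodule.torsionBy ℤ (E⁄Qb).Point p) = p ^ 2 :=
    Lib.ECBiquad.card_torsionBy_rat E hEΔ hp.ne_zero
  have hFD := finiteDimensional_torsionField E p
  -- the finite set of excluded primes
  let S' : Finset ℕ := S ∪ {2, p} ∪ W.Δ.natAbs.primeFactors
  -- every `g` has a nonzero fixed vector
  have hfix : ∀ g : GQ, ∃ x : Submodule.torsionBy ℤ (E⁄Qb).Point p, x ≠ 0 ∧ g • x = x := by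
    intro g
    obtain ⟨ℓ, hℓ, hℓS', A, σ, k, j, hA, hσ, hgσ, -⟩ := hFrob (torsionField E p) S' g
    have hℓS : ℓ ∉ S := fun h => hℓS' (by simp [S', h])
    have hℓ2 : ℓ ≠ 2 := fun h => hℓS' (by simp [S', h])
    have hℓp : ℓ ≠ p := fun h => hℓS' (by simp [S', h])
    have hgood : W.IsGoodPrimeFor ℓ := by
      intro hdvd
      apply hℓS'
      have h1 : ℓ ∣ W.Δ.natAbs := Int.natCast_dvd.mp hdvd
      have h2 : ℓ ∈ W.Δ.natAbs.primeFactors :=
        Nat.mem_primeFactors.mpr ⟨hℓ, h1, Int.natAbs_ne_zero.mpr hWΔ⟩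
      simp [S', h2]
    obtain ⟨x, hx0, hx⟩ := exists_frobenius_fixed E hW hℓ hℓ2 hp hℓp hgood
      (hall ℓ hℓ hℓS hℓp hgood) A hA σ hσ
    refine ⟨x, hx0, ?_⟩
    rw [smul_eq_of_agree E p g (σ ^ k) hgσ x]
    exact pow_smul_eq_self hx k
  -- the stable line
  obtain ⟨N, hbot, htop, hN⟩ := exists_stable_line hcard
    (Set.range (galoisRepModuleEnd (K := Qb) ℚ E p))
    (by
      rintro _ ⟨g, rfl⟩ _ ⟨h, rfl⟩
      exact ⟨g * h, map_mul _ g h⟩)
    (by
      rintro _ ⟨g, rfl⟩
      obtain ⟨x, hx0, hx⟩ := hfix g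
      exact ⟨x, hx0, hx⟩)
  have hstab : IsGaloisStable ℚ N := by
    intro σ x hx
    exact hN _ ⟨σ, rfl⟩ x hx
  rcases hirr.2 N hstab with h | h
  · exact hbot h
  · exact htop h

end Fermat.Agent.EC.FrobFixed
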