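/-
EC / FrobFixed: S41 step 3 ("non-Eisenstein"), unconditional.

If the mod-`p` representation of an elliptic curve `E / ℚ` with integral model `W` is irreducible,
then outside every finite set of primes there is a good prime `ℓ ≠ p` with
`a_ℓ(W) ≢ ℓ + 1 (mod p)`.
-/
import Mathlib
import Fermat.Agent.Frob.Main
import Fermat.Agent.EC.FrobFixed.NonEisenstein

set_option autoImplicit false

namespace Fermat.Agent.EC.FrobFixed

open WeierstrassCurve WeierstrassCurve.Affine WeierstrassCurve.Affine.Point
open scoped WeierstrassCurve.Affine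

local notation "Qb" => AlgebraicClosure ℚ

/-- The Frobenius-density statement of the FROB project. -/
theorem frobGenerating : FrobGenerating :=
  fun F _ S g => Fermat.Agent.Frob.exists_frobenius_generating F S g

/-- **S41 step 3 (non-Eisenstein).**  If `E[p]` is irreducible, then outside every finite set of
primes there is a good prime `ℓ ≠ p` with `a_ℓ ≢ ℓ + 1 (mod p)`. -/
theorem exists_good_prime_not_dvd (E : WeierstrassCurve ℚ) [E.IsElliptic]
    {W : WeierstrassCurve ℤ} (hW : W.IsIntegralModelOf E) {p : ℕ} (hp : p.Prime)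
    (hirr : GaloisRepIsIrreducible (K := Qb) ℚ E p) (S : Finset ℕ) :
    ∃ ℓ : ℕ, ℓ.Prime ∧ ℓ ∉ S ∧ ℓ ≠ p ∧ W.IsGoodPrimeFor ℓ ∧
      ¬ (p : ℤ) ∣ (ℓ : ℤ) + 1 - W.apOfModel ℓ :=
  exists_good_prime_not_dvd_of_frob frobGenerating E hW hp hirr S

end Fermat.Agent.EC.FrobFixed
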