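/-
EC / FrobFixed: a group `G` acting on a 2-dimensional `ZMod p`-vector space, with a normal
subgroup `H` containing all squares, every element of which has a nonzero fixed vector, has a
stable line.
-/
import Mathlib
import Fermat.Agent.EC.GlueLine
import Fermat.Agent.EC.FrobFixed.StableLine

set_option autoImplicit false

namespace Fermat.Agent.EC.FrobFixed

section StableLineSq

variable {p : ℕ} [Fact p.Prime] {V : Type*} [AddCommGroup V] [Module (ZMod p) V] [Finite V]

/-- A module with `p ^ 2` elements has a proper nonzero submodule. -/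
theorem exists_proper_submodule (hV : Nat.card V = p ^ 2) :
    ∃ N : Submodule (ZMod p) V, N ≠ ⊥ ∧ N ≠ ⊤ := by
  have hp : p.Prime := Fact.out
  have hnt : Nontrivial V := by
    rw [← Finite.one_lt_card_iff_nontrivial, hV]
    exact Nat.one_lt_pow (by norm_num) hp.one_lt
  obtain ⟨e, he0⟩ := exists_ne (0 : V)
  obtain ⟨N, hb, ht, -⟩ := exists_stable_line hV ({1} : Set (Module.End (ZMod p) V))
    (by
      rintro f hf g hg
      rw [Set.mem_singleton_iff] at hf hg ⊢
      rw [hf, hg, mul_one])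
    (by
      rintro f hf
      rw [Set.mem_singleton_iff] at hf
      exact ⟨e, he0, by rw [hf, Module.End.one_apply]⟩)
  exact ⟨N, hb, ht⟩

omit [Finite V] in
/-- An involution different from `-1` has a nonzero fixed vector. -/
theorem ker_sub_one_ne_bot_of_sq {f : Module.End (ZMod p) V} (hsq : f * f = 1) (hf : f ≠ -1) :
    LinearMap.ker (f - 1) ≠ ⊥ := by
  intro h
  apply hf
  have hinj : Function.Injective ⇑(f - 1) := LinearMap.ker_eq_bot.mp h
  refine LinearMap.ext fun v => ?_
  have h1 : (f - 1) ((f + 1) v) = 0 := by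
    have e : (f - 1) ((f + 1) v) = ((f - 1) * (f + 1)) v := rfl
    have e2 : (f - 1) * (f + 1) = f * f - 1 := by noncomm_ring
    rw [e, e2, hsq, sub_self, LinearMap.zero_apply]
  have h2 : (f + 1) v = 0 := hinj (h1.trans (map_zero _).symm)
  rw [LinearMap.add_apply, Module.End.one_apply] at h2
  rw [LinearMap.neg_apply, Module.End.one_apply]
  exact eq_neg_of_add_eq_zero_left h2

/-- The case of a commuting family of involutions. -/
theorem exists_stable_line_of_involutions (hV : Nat.card V = p ^ 2) {G : Type*} [Group G]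
    (ρ : G →* Module.End (ZMod p) V) (hinv : ∀ g : G, ρ g * ρ g = 1)
    (hcomm : ∀ g g' : G, ρ g * ρ g' = ρ g' * ρ g) :
    ∃ N : Submodule (ZMod p) V, N ≠ ⊥ ∧ N ≠ ⊤ ∧ ∀ g : G, ∀ x ∈ N, ρ g x ∈ N := by
  by_cases hall : ∀ g : G, ρ g = 1 ∨ ρ g = -1
  · obtain ⟨N, hb, ht⟩ := exists_proper_submodule (p := p) (V := V) hV
    refine ⟨N, hb, ht, fun g x hx => ?_⟩
    rcases hall g with h | h
    · rw [h, Module.End.one_apply]
      exact hx
    · rw [h, LinearMap.neg_apply, Module.End.one_apply]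
      exact N.neg_mem hx
  · rw [not_forall] at hall
    obtain ⟨g₀, hg₀⟩ := hall
    rw [not_or] at hg₀
    refine ⟨LinearMap.ker (ρ g₀ - 1), ker_sub_one_ne_bot_of_sq (hinv g₀) hg₀.2,
      ker_sub_one_ne_top hg₀.1, fun g x hx => ?_⟩
    rw [LinearMap.mem_ker, LinearMap.sub_apply, Module.End.one_apply, sub_eq_zero] at hx ⊢
    have e : ρ g₀ (ρ g x) = (ρ g₀ * ρ g) x := rfl
    rw [e, hcomm g₀ g, Module.End.mul_apply, hx]

/-- **Stable line, squares version.**  Let `G` act on a `ZMod p`-module `V` with `p ^ 2`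
elements, and let `H` be a subgroup stable under conjugation and containing all squares.  If
every element of `H` has a nonzero fixed vector, then `V` has a `G`-stable proper nonzero
submodule. -/
theorem exists_stable_line_of_sq (hV : Nat.card V = p ^ 2) {G : Type*} [Group G]
    (ρ : G →* Module.End (ZMod p) V) (H : Subgroup G)
    (hconj : ∀ g : G, ∀ h ∈ H, g⁻¹ * h * g ∈ H) (hsq : ∀ g : G, g * g ∈ H)
    (hfix : ∀ h ∈ H, ∃ v : V, v ≠ 0 ∧ ρ h v = v) :
    ∃ N : Submodule (ZMod p) V, N ≠ ⊥ ∧ N ≠ ⊤ ∧ ∀ g : G, ∀ x ∈ N, ρ g x ∈ N := by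
  have hV' : Nat.card V ≤ p ^ 2 := hV.le
  -- `ρ h (ρ g v) = ρ g (ρ (g⁻¹ h g) v)`
  have hswap : ∀ (g h : G) (v : V), ρ h (ρ g v) = ρ g (ρ (g⁻¹ * h * g) v) := by
    intro g h v
    have e1 : ρ h (ρ g v) = (ρ (h * g)) v := by rw [map_mul ρ h g]; rfl
    have e2 : ρ g (ρ (g⁻¹ * h * g) v) = (ρ (g * (g⁻¹ * h * g))) v := by
      rw [map_mul ρ g (g⁻¹ * h * g)]; rfl
    rw [e1, e2]
    congr 2
    group
  -- injectivity of `ρ g`
  have hinj : ∀ (g : G) (v w : V), ρ g v = ρ g w → v = w := by
    intro g v w h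
    have e : ∀ u : V, ρ g⁻¹ (ρ g u) = u := by
      intro u
      have : ρ g⁻¹ (ρ g u) = (ρ (g⁻¹ * g)) u := by rw [map_mul ρ g⁻¹ g]; rfl
      rw [this, inv_mul_cancel, map_one, Module.End.one_apply]
    rw [← e v, ← e w, h]
  -- the common fixed vectors of `H`
  let F : Submodule (ZMod p) V :=
    { carrier := {v | ∀ h ∈ H, ρ h v = v}
      add_mem' := by
        intro a b ha hb h hh
        rw [map_add, ha h hh, hb h hh]
      zero_mem' := by
        intro h _
        exact map_zero _
      smul_mem' := by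
        intro c a ha h hh
        rw [map_smul, ha h hh] }
  have hF : ∀ v : V, v ∈ F ↔ ∀ h ∈ H, ρ h v = v := fun v => Iff.rfl
  have hFstab : ∀ g : G, ∀ x ∈ F, ρ g x ∈ F := by
    intro g x hx
    rw [hF] at hx ⊢
    intro h hh
    rw [hswap g h x, hx _ (hconj g h hh)]
  by_cases hFb : F = ⊥
  · -- no common fixed vector: an `H`-stable line, which is unique
    obtain ⟨N₀, hb₀, ht₀, hN₀⟩ := exists_stable_line hV (ρ '' (H : Set G))
      (by
        rintro _ ⟨h₁, hh₁, rfl⟩ _ ⟨h₂, hh₂, rfl⟩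
        exact ⟨h₁ * h₂, H.mul_mem hh₁ hh₂, map_mul _ _ _⟩)
      (by
        rintro _ ⟨h, hh, rfl⟩
        exact hfix h hh)
    have hN₀' : ∀ h ∈ H, ∀ x ∈ N₀, ρ h x ∈ N₀ := fun h hh x hx => hN₀ _ ⟨h, hh, rfl⟩ x hx
    by_cases hG : ∀ g : G, ∀ x ∈ N₀, ρ g x ∈ N₀
    · exact ⟨N₀, hb₀, ht₀, hG⟩
    · exfalso
      rw [not_forall] at hG
      obtain ⟨g, hG⟩ := hG
      rw [not_forall] at hG
      obtain ⟨x, hG⟩ := hG
      rw [Classical.not_imp] at hG
      obtain ⟨hx, he₁⟩ := hG
      set e₁ : V := ρ g x with he₁def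
      have he₁0 : e₁ ≠ 0 := fun h => he₁ (h ▸ N₀.zero_mem)
      have hx0 : x ≠ 0 := by
        intro h
        apply he₁0
        rw [he₁def, h, map_zero]
      let N₁ : Submodule (ZMod p) V := Submodule.map (ρ g) N₀
      have he₁N₁ : e₁ ∈ N₁ := Submodule.mem_map_of_mem hx
      have hb₁ : N₁ ≠ ⊥ := by
        intro h
        have := he₁N₁
        rw [h, Submodule.mem_bot] at this
        exact he₁0 this
      have ht₁ : N₁ ≠ ⊤ := by
        intro h
        apply ht₀
        rw [eq_top_iff]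
        intro v _
        have hv : ρ g v ∈ N₁ := by rw [h]; exact Submodule.mem_top
        obtain ⟨n, hn, hnv⟩ := Submodule.mem_map.mp hv
        rw [← hinj g n v hnv]
        exact hn
      have hN₁' : ∀ h ∈ H, ∀ y ∈ N₁, ρ h y ∈ N₁ := by
        intro h hh y hy
        obtain ⟨n, hn, rfl⟩ := Submodule.mem_map.mp hy
        rw [hswap g h n]
        exact Submodule.mem_map_of_mem (hN₀' _ (hconj g h hh) n hn)
      -- every element of `H` is trivial on `N₀` or on `N₁`
      have halt : ∀ h ∈ H, (∀ y ∈ N₀, ρ h y = y) ∨ (∀ y ∈ N₁, ρ h y = y) := by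
        intro h hh
        obtain ⟨v, hv0, hv⟩ := hfix h hh
        obtain ⟨k, hk⟩ := coline_span hV' N₀ hb₀ ht₀ he₁ v
        set n₀ : V := v - k • e₁ with hn₀
        obtain ⟨c, hc⟩ := line_span hV' N₁ hb₁ ht₁ he₁N₁ he₁0 (ρ h e₁) (hN₁' h hh e₁ he₁N₁)
        have hn₀' : ρ h n₀ ∈ N₀ := hN₀' h hh n₀ hk
        have hkey : ρ h n₀ - n₀ = (k * (c - 1) * (-1)) • e₁ := by
          have e1 : ρ h n₀ = v - k • (c • e₁) := by
            rw [hn₀, map_sub, map_smul, hv, hc]
          rw [e1, hn₀]
          module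
        have hd : k * (c - 1) * (-1) = 0 := by
          by_contra hd
          apply he₁
          have h1 : (k * (c - 1) * (-1)) • e₁ ∈ N₀ := by
            rw [← hkey]
            exact N₀.sub_mem hn₀' hk
          have h2 := N₀.smul_mem (k * (c - 1) * (-1))⁻¹ h1
          rwa [smul_smul, inv_mul_cancel₀ hd, one_smul] at h2
        have hfixn : ρ h n₀ = n₀ := by
          rw [hd, zero_smul] at hkey
          exact sub_eq_zero.mp hkey
        by_cases hk0 : k = 0
        · left
          have hvn : n₀ = v := by rw [hn₀, hk0, zero_smul, sub_zero]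
          intro y hy
          obtain ⟨k', rfl⟩ := line_span hV' N₀ hb₀ ht₀ hk (hvn ▸ hv0) y hy
          rw [map_smul, hfixn]
        · right
          have hc1 : c = 1 := by
            have h1 : k * (c - 1) = 0 := by
              have := hd
              rwa [mul_neg_one, neg_eq_zero] at this
            rcases mul_eq_zero.mp h1 with h2 | h2
            · exact absurd h2 hk0
            · exact sub_eq_zero.mp h2
          rw [hc1, one_smul] at hc
          intro y hy
          obtain ⟨k', rfl⟩ := line_span hV' N₁ hb₁ ht₁ he₁N₁ he₁0 y hy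
          rw [map_smul, hc]
      -- not all of `H` is trivial on `N₀`, nor on `N₁`
      have hnot₀ : ¬ ∀ h ∈ H, ∀ y ∈ N₀, ρ h y = y := by
        intro hall
        have hxF : x ∈ F := (hF x).mpr fun h hh => hall h hh x hx
        rw [hFb, Submodule.mem_bot] at hxF
        exact hx0 hxF
      have hnot₁ : ¬ ∀ h ∈ H, ∀ y ∈ N₁, ρ h y = y := by
        intro hall
        have hxF : e₁ ∈ F := (hF e₁).mpr fun h hh => hall h hh e₁ he₁N₁
        rw [hFb, Submodule.mem_bot] at hxF
        exact he₁0 hxF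
      rw [not_forall] at hnot₀ hnot₁
      obtain ⟨h₁, hnot₀⟩ := hnot₀
      obtain ⟨h₀, hnot₁⟩ := hnot₁
      rw [Classical.not_imp] at hnot₀ hnot₁
      obtain ⟨hh₁, hnot₀⟩ := hnot₀
      obtain ⟨hh₀, hnot₁⟩ := hnot₁
      have hP₁ : ∀ y ∈ N₁, ρ h₁ y = y := (halt h₁ hh₁).resolve_left hnot₀
      have hP₀ : ∀ y ∈ N₀, ρ h₀ y = y := (halt h₀ hh₀).resolve_right hnot₁
      have hmulapp : ∀ y : V, ρ (h₀ * h₁) y = ρ h₀ (ρ h₁ y) := by
        intro y
        rw [map_mul]
        rfl
      rcases halt (h₀ * h₁) (H.mul_mem hh₀ hh₁) with h | h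
      · apply hnot₀
        intro y hy
        have h1 := h y hy
        rw [hmulapp, hP₀ _ (hN₀' h₁ hh₁ y hy)] at h1
        exact h1
      · apply hnot₁
        intro y hy
        have h1 := h y hy
        rw [hmulapp, hP₁ y hy] at h1
        exact h1
  · by_cases hFt : F = ⊤
    · -- `H` acts trivially: commuting involutions
      have htriv : ∀ h ∈ H, ρ h = 1 := by
        intro h hh
        refine LinearMap.ext fun v => ?_
        have hv : v ∈ F := by rw [hFt]; exact Submodule.mem_top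
        rw [Module.End.one_apply]
        exact (hF v).mp hv h hh
      have hinv : ∀ g : G, ρ g * ρ g = 1 := by
        intro g
        rw [← map_mul]
        exact htriv _ (hsq g)
      have hcomm : ∀ g g' : G, ρ g * ρ g' = ρ g' * ρ g := by
        intro g g'
        have h1 : ρ g * ρ g' * (ρ g * ρ g') = 1 := by
          rw [← map_mul, ← map_mul]
          exact htriv _ (hsq (g * g'))
        have e3 : ρ g' * ρ g * (ρ g * ρ g') = 1 := by
          have e4 : ρ g' * ρ g * (ρ g * ρ g') = ρ g' * (ρ g * ρ g) * ρ g' := by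
            simp only [mul_assoc]
          rw [e4, hinv g, mul_one, hinv g']
        calc ρ g * ρ g' = (ρ g' * ρ g * (ρ g * ρ g')) * (ρ g * ρ g') := by rw [e3, one_mul]
          _ = ρ g' * ρ g * ((ρ g * ρ g') * (ρ g * ρ g')) := by rw [mul_assoc]
          _ = ρ g' * ρ g := by rw [h1, mul_one]
      exact exists_stable_line_of_involutions hV ρ hinv hcomm
    · exact ⟨F, hFb, hFt, hFstab⟩

end StableLineSq

end Fermat.Agent.EC.FrobFixed
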