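/-
EC / FrobFixed: S41 step 3 ("non-Eisenstein"), squares version.

If the mod-`p` representation of an elliptic curve `E / ℚ` with integral model `W` is irreducible,
then for every modulus `m > 0` and outside every finite set of primes there is a good prime
`ℓ ≠ p` which is a square modulo `m` and satisfies `a_ℓ(W) ≢ ℓ + 1 (mod p)`.
-/
import Mathlib
import Fermat.Agent.Frob.Main
import Fermat.Agent.Frob.Cyclo
import Fermat.Agent.EC.FrobFixed.NonEisenstein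
import Fermat.Agent.EC.FrobFixed.NonEisensteinFinal
import Fermat.Agent.EC.FrobFixed.StableLineSq

set_option autoImplicit false

namespace Fermat.Agent.EC.FrobFixed

open WeierstrassCurve WeierstrassCurve.Affine WeierstrassCurve.Affine.Point
open scoped WeierstrassCurve.Affine

local notation "Qb" => AlgebraicClosure ℚ
local notation "GQ" => (AlgebraicClosure ℚ ≃ₐ[ℚ] AlgebraicClosure ℚ)

section Cyclo

variable {ζ : Qb} {m : ℕ}

/-- Every automorphism maps a primitive root of unity to a power of itself. -/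
theorem exists_apply_eq_pow (hζ : IsPrimitiveRoot ζ m) (hm : 0 < m) (g : GQ) :
    ∃ c : ℕ, g ζ = ζ ^ c := by
  have : NeZero m := ⟨hm.ne'⟩
  have h1 : (g ζ) ^ m = 1 := by rw [← map_pow, hζ.pow_eq_one, map_one]
  obtain ⟨c, -, hc⟩ := hζ.eq_pow_of_pow_eq_one h1
  exact ⟨c, hc.symm⟩

/-- Equal powers of a primitive `m`-th root of unity have congruent exponents. -/
theorem modEq_of_pow_eq_pow (hζ : IsPrimitiveRoot ζ m) (hm : 0 < m) {a b : ℕ}
    (h : ζ ^ a = ζ ^ b) : a ≡ b [MOD m] := by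
  have hζ0 : ζ ≠ 0 := hζ.ne_zero hm.ne'
  have h3 : (Units.mk0 ζ hζ0) ^ a = (Units.mk0 ζ hζ0) ^ b := by
    ext
    simpa using h
  have h4 := pow_eq_pow_iff_modEq.mp h3
  have h5 : orderOf (Units.mk0 ζ hζ0) = m := by
    rw [← orderOf_units, Units.val_mk0, ← hζ.eq_orderOf]
  rwa [h5] at h4

/-- The automorphisms acting on `ζ` through a square exponent form a subgroup. -/
def sqSubgroup (hζ : IsPrimitiveRoot ζ m) (hm : 0 < m) : Subgroup GQ where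
  carrier := {h | ∃ t : ℕ, h ζ = ζ ^ (t ^ 2)}
  mul_mem' := by
    rintro h₁ h₂ ⟨t₁, ht₁⟩ ⟨t₂, ht₂⟩
    refine ⟨t₁ * t₂, ?_⟩
    rw [AlgEquiv.mul_apply, ht₂, map_pow, ht₁, ← pow_mul]
    congr 1
    ring
  one_mem' := ⟨1, by rw [AlgEquiv.one_apply, one_pow, pow_one]⟩
  inv_mem' := by
    rintro h ⟨t, ht⟩
    obtain ⟨s, hs⟩ := exists_apply_eq_pow hζ hm h⁻¹
    have h1 : ζ = ζ ^ (t ^ 2 * s) := by
      have e : h (h⁻¹ ζ) = ζ := by
        rw [← AlgEquiv.mul_apply, mul_inv_cancel, AlgEquiv.one_apply]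
      rw [hs, map_pow, ht, ← pow_mul] at e
      exact e.symm
    refine ⟨s * t, ?_⟩
    rw [hs]
    have e2 : ζ ^ ((s * t) ^ 2) = (ζ ^ (t ^ 2 * s)) ^ s := by
      rw [← pow_mul]
      congr 1
      ring
    rw [e2, ← h1]

theorem mem_sqSubgroup (hζ : IsPrimitiveRoot ζ m) (hm : 0 < m) (h : GQ) :
    h ∈ sqSubgroup hζ hm ↔ ∃ t : ℕ, h ζ = ζ ^ (t ^ 2) := Iff.rfl

theorem conj_mem_sqSubgroup (hζ : IsPrimitiveRoot ζ m) (hm : 0 < m) (g : GQ) {h : GQ}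
    (hh : h ∈ sqSubgroup hζ hm) : g⁻¹ * h * g ∈ sqSubgroup hζ hm := by
  obtain ⟨t, ht⟩ := hh
  obtain ⟨c, hc⟩ := exists_apply_eq_pow hζ hm g
  refine ⟨t, ?_⟩
  have e1 : (g⁻¹ * h * g) ζ = g⁻¹ (h (g ζ)) := rfl
  have e2 : h (g ζ) = g (ζ ^ (t ^ 2)) := by
    rw [hc, map_pow, ht, map_pow, hc, ← pow_mul, ← pow_mul, mul_comm]
  rw [e1, e2, ← AlgEquiv.mul_apply, inv_mul_cancel, AlgEquiv.one_apply]

theorem sq_mem_sqSubgroup (hζ : IsPrimitiveRoot ζ m) (hm : 0 < m) (g : GQ) :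
    g * g ∈ sqSubgroup hζ hm := by
  obtain ⟨c, hc⟩ := exists_apply_eq_pow hζ hm g
  refine ⟨c, ?_⟩
  rw [AlgEquiv.mul_apply, hc, map_pow, hc, ← pow_mul, pow_two]

/-- Powers of an element of the square subgroup. -/
theorem pow_apply_of_apply_eq {h : GQ} {t : ℕ} (ht : h ζ = ζ ^ (t ^ 2)) (j : ℕ) :
    (h ^ j) ζ = ζ ^ ((t ^ j) ^ 2) := by
  induction j with
  | zero => rw [pow_zero, AlgEquiv.one_apply, pow_zero, one_pow, pow_one]
  | succ j ih =>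
    rw [pow_succ, AlgEquiv.mul_apply, ht, map_pow, ih, ← pow_mul]
    congr 1
    ring

end Cyclo

/-- **S41 step 3 (non-Eisenstein), squares version.**  If `E[p]` is irreducible, then for every
`m > 0` and outside every finite set of primes there is a good prime `ℓ ≠ p`, congruent to a
square modulo `m`, with `a_ℓ ≢ ℓ + 1 (mod p)`. -/
theorem exists_good_prime_sq_not_dvd (E : WeierstrassCurve ℚ) [E.IsElliptic]
    {W : WeierstrassCurve ℤ} (hW : W.IsIntegralModelOf E) {p : ℕ} (hp : p.Prime)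
    (hirr : GaloisRepIsIrreducible (K := Qb) ℚ E p) {m : ℕ} (hm : 0 < m) (S : Finset ℕ) :
    ∃ ℓ t : ℕ, ℓ.Prime ∧ ℓ ∉ S ∧ ℓ ≠ p ∧ W.IsGoodPrimeFor ℓ ∧ ¬ ℓ ∣ m ∧ ℓ ≡ t ^ 2 [MOD m] ∧
      ¬ (p : ℤ) ∣ (ℓ : ℤ) + 1 - W.apOfModel ℓ := by
  by_contra hcon
  have hall : ∀ ℓ t : ℕ, ℓ.Prime → ℓ ∉ S → ℓ ≠ p → W.IsGoodPrimeFor ℓ → ¬ ℓ ∣ m →
      ℓ ≡ t ^ 2 [MOD m] → (p : ℤ) ∣ (ℓ : ℤ) + 1 - W.apOfModel ℓ := by
    intro ℓ t h1 h2 h3 h4 h5 h6
    by_contra h7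
    exact hcon ⟨ℓ, t, h1, h2, h3, h4, h5, h6, h7⟩
  have : Fact p.Prime := ⟨hp⟩
  have hmQ : NeZero (m : ℚ) := ⟨by exact_mod_cast hm.ne'⟩
  obtain ⟨ζ, hζ⟩ := HasEnoughRootsOfUnity.exists_primitiveRoot Qb m
  have hEΔ : E.Δ ≠ 0 := E.isUnit_Δ.ne_zero
  have hWΔ : W.Δ ≠ 0 := model_Δ_ne_zero E hW
  have hfin : Finite (Submodule.torsionBy ℤ (E⁄Qb).Point p) :=
    Lib.ECBiquad.finite_torsionBy_rat E hEΔ hp.ne_zero
  have hcard : Nat.card (Submodule.torsionBy ℤ (E⁄Qb).Point p) = p ^ 2 :=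
    Lib.ECBiquad.card_torsionBy_rat E hEΔ hp.ne_zero
  have hFD := finiteDimensional_torsionField E p
  have halg : Algebra.IsAlgebraic ℚ Qb := Lib.GalQbar.isAlgebraic_rat
  have hFD2 : FiniteDimensional ℚ (IntermediateField.adjoin ℚ {ζ}) :=
    IntermediateField.adjoin.finiteDimensional (halg.isAlgebraic ζ).isIntegral
  let F : IntermediateField ℚ Qb := torsionField E p ⊔ IntermediateField.adjoin ℚ {ζ}
  have hFD3 : FiniteDimensional ℚ F := IntermediateField.finiteDimensional_sup _ _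
  have hζF : ζ ∈ F :=
    (le_sup_right : IntermediateField.adjoin ℚ {ζ} ≤ F)
      (IntermediateField.subset_adjoin ℚ _ (Set.mem_singleton ζ))
  -- the finite set of excluded primes
  let S' : Finset ℕ := S ∪ {2, p} ∪ W.Δ.natAbs.primeFactors ∪ m.primeFactors
  -- every element of the square subgroup has a nonzero fixed vector
  have hfix : ∀ h ∈ sqSubgroup hζ hm,
      ∃ x : Submodule.torsionBy ℤ (E⁄Qb).Point p, x ≠ 0 ∧ h • x = x := by
    rintro h ⟨t, ht⟩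
    obtain ⟨ℓ, hℓ, hℓS', A, σ, k, j, hA, hσ, hgσ, hσg⟩ := frobGenerating F S' h
    have hℓS : ℓ ∉ S := fun h => hℓS' (by simp [S', h])
    have hℓ2 : ℓ ≠ 2 := fun h => hℓS' (by simp [S', h])
    have hℓp : ℓ ≠ p := fun h => hℓS' (by simp [S', h])
    have hgood : W.IsGoodPrimeFor ℓ := by
      intro hdvd
      apply hℓS'
      have h1 : ℓ ∣ W.Δ.natAbs := Int.natCast_dvd.mp hdvd
      have h2 : ℓ ∈ W.Δ.natAbs.primeFactors :=
        Nat.mem_primeFactors.mpr ⟨hℓ, h1, Int.natAbs_ne_zero.mpr hWΔ⟩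
      simp [S', h2]
    have hℓm : ¬ ℓ ∣ m := by
      intro hdvd
      apply hℓS'
      have h2 : ℓ ∈ m.primeFactors := Nat.mem_primeFactors.mpr ⟨hℓ, hdvd, hm.ne'⟩
      simp [S', h2]
    have h1 : σ ζ = ζ ^ ℓ :=
      Fermat.Agent.Frob.isFrobeniusAt_apply_of_pow_eq_one hℓ hA hσ hζ.pow_eq_one hℓm
    have h2 : σ ζ = (h ^ j) ζ := hσg ζ hζF
    have h3 : ζ ^ ℓ = ζ ^ ((t ^ j) ^ 2) := by
      rw [← h1, h2, pow_apply_of_apply_eq ht j]
    have hmod : ℓ ≡ (t ^ j) ^ 2 [MOD m] := modEq_of_pow_eq_pow hζ hm h3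
    obtain ⟨x, hx0, hx⟩ := exists_frobenius_fixed E hW hℓ hℓ2 hp hℓp hgood
      (hall ℓ (t ^ j) hℓ hℓS hℓp hgood hℓm hmod) A hA σ hσ
    refine ⟨x, hx0, ?_⟩
    rw [smul_eq_of_agree E p h (σ ^ k)
      (fun z hz => hgσ z ((le_sup_left : torsionField E p ≤ F) hz)) x]
    exact pow_smul_eq_self hx k
  -- the stable line
  obtain ⟨N, hbot, htop, hN⟩ := exists_stable_line_of_sq hcard
    (galoisRepModuleEnd (K := Qb) ℚ E p) (sqSubgroup hζ hm)
    (fun g h hh => conj_mem_sqSubgroup hζ hm g hh) (fun g => sq_mem_sqSubgroup hζ hm g)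
    (fun h hh => by
      obtain ⟨x, hx0, hx⟩ := hfix h hh
      exact ⟨x, hx0, hx⟩)
  have hstab : IsGaloisStable ℚ N := by
    intro σ x hx
    exact hN σ x hx
  rcases hirr.2 N hstab with h | h
  · exact hbot h
  · exact htop h

end Fermat.Agent.EC.FrobFixed
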